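import Fermat.Agent.S48.Defs

/-! # S48 core (K2): formal properties of the density inequalities -/

set_option autoImplicit false

namespace Fermat.Agent.S48

open Polynomial

local notation "Qbar" => AlgebraicClosure ℚ
local notation "GQ" => (AlgebraicClosure ℚ ≃ₐ[ℚ] AlgebraicClosure ℚ)

theorem LL_tendsto : Filter.Tendsto LL (nhdsWithin 1 (Set.Ioi 1)) Filter.atTop := by
  unfold LL
  refine Real.tendsto_log_atTop.comp ?_
  simp only [one_div]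
  refine tendsto_inv_nhdsGT_zero.comp ?_
  rw [tendsto_nhdsWithin_iff]
  constructor
  · have : Filter.Tendsto (fun s : ℝ => s - 1) (nhds 1) (nhds (1 - 1)) :=
      (continuous_id.sub continuous_const).tendsto 1
    rw [sub_self] at this
    exact this.mono_left nhdsWithin_le_nhds
  · filter_upwards [self_mem_nhdsWithin] with s hs
    exact sub_pos.2 (Set.mem_Ioi.1 hs)

/-- filter form of `LowerDens` -/
theorem LowerDens.eventually {X : Set ℕ} {d : ℝ} (h : LowerDens X d) {δ : ℝ} (hδ : 0 < δ) :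
    ∀ᶠ s in nhdsWithin (1 : ℝ) (Set.Ioi 1), ∃ S : Finset ℕ, (∀ p ∈ S, p.Prime ∧ p ∈ X) ∧
      (d - δ) * LL s ≤ ∑ p ∈ S, (p : ℝ) ^ (-s) := by
  obtain ⟨s₀, h1, h2⟩ := h δ hδ
  filter_upwards [Ioo_mem_nhdsGT h1] with s hs
  exact h2 s hs.1 hs.2

theorem eventually_range : ∀ᶠ s in nhdsWithin (1 : ℝ) (Set.Ioi 1), 1 < s ∧ s ≤ 2 := by
  filter_upwards [Ioo_mem_nhdsGT (show (1 : ℝ) < 2 by norm_num)] with s hs
  exact ⟨hs.1, hs.2.le⟩

/-- no inequality `a * LL s ≤ C` with `a > 0` can hold near `1`. -/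
theorem false_of_eventually_mul_LL_le {a C : ℝ} (ha : 0 < a)
    (h : ∀ᶠ s in nhdsWithin (1 : ℝ) (Set.Ioi 1), a * LL s ≤ C) : False := by
  obtain ⟨s, h1, h2⟩ := (h.and (LL_tendsto.eventually_gt_atTop (C / a))).exists
  rw [div_lt_iff₀ ha] at h2
  linarith

/-- Weighted version: pairwise disjoint sets `X i` of lower density `≥ d i` on which
`w ≥ c i ≥ 0`. -/
theorem sum_le_of_lowerDens_of_weightedUpper {ι : Type*} (s : Finset ι) (X : ι → Set ℕ)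
    (d c : ι → ℝ) (w : ℕ → ℝ) (b : ℝ) (_hw : ∀ p, 0 ≤ w p) (hc : ∀ i ∈ s, 0 ≤ c i)
    (hdisj : ∀ i ∈ s, ∀ j ∈ s, i ≠ j → Disjoint (X i) (X j))
    (hX : ∀ i ∈ s, LowerDens (X i) (d i)) (hcw : ∀ i ∈ s, ∀ p ∈ X i, c i ≤ w p)
    (hW : WeightedUpper w b) : ∑ i ∈ s, c i * d i ≤ b := by
  classical
  by_contra hlt
  rw [not_le] at hlt
  obtain ⟨C, hC⟩ := hW
  have hcs : 0 ≤ ∑ i ∈ s, c i := Finset.sum_nonneg hc
  set gap : ℝ := ∑ i ∈ s, c i * d i - b with hgap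
  have hgap0 : 0 < gap := sub_pos.2 hlt
  set δ : ℝ := gap / (2 * (∑ i ∈ s, c i + 1)) with hδ
  have hδ0 : 0 < δ := by positivity
  have hδ1 : δ * ∑ i ∈ s, c i ≤ gap / 2 := by
    rw [hδ, div_mul_eq_mul_div, div_le_div_iff₀ (by positivity) (by norm_num)]
    nlinarith
  have hev : ∀ᶠ t in nhdsWithin (1 : ℝ) (Set.Ioi 1), ∀ i ∈ s, ∃ S : Finset ℕ,
      (∀ p ∈ S, p.Prime ∧ p ∈ X i) ∧ (d i - δ) * LL t ≤ ∑ p ∈ S, (p : ℝ) ^ (-t) :=
    (Filter.eventually_all_finset s).2 fun i hi => (hX i hi).eventually hδ0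
  refine false_of_eventually_mul_LL_le (a := gap / 2) (C := C) (by positivity) ?_
  filter_upwards [hev, eventually_range, LL_tendsto.eventually_ge_atTop 0] with t ht htr hL
  choose! S hS1 hS2 using ht
  have hpd : (s : Set ι).PairwiseDisjoint S := by
    intro i hi j hj hij
    rw [Function.onFun, Finset.disjoint_left]
    intro p hp hp'
    exact Set.disjoint_left.1 (hdisj i hi j hj hij) (hS1 i hi p hp).2 (hS1 j hj p hp').2
  have h1 := hC t htr.1 htr.2 (s.biUnion S) (by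
    intro p hp
    obtain ⟨i, hi, hp⟩ := Finset.mem_biUnion.1 hp
    exact (hS1 i hi p hp).1)
  rw [Finset.sum_biUnion hpd] at h1
  have h2 : ∑ i ∈ s, c i * ((d i - δ) * LL t) ≤ ∑ i ∈ s, ∑ p ∈ S i, w p * (p : ℝ) ^ (-t) := by
    refine Finset.sum_le_sum fun i hi => ?_
    calc c i * ((d i - δ) * LL t) ≤ c i * ∑ p ∈ S i, (p : ℝ) ^ (-t) :=
          mul_le_mul_of_nonneg_left (hS2 i hi) (hc i hi)
      _ = ∑ p ∈ S i, c i * (p : ℝ) ^ (-t) := Finset.mul_sum _ _ _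
      _ ≤ ∑ p ∈ S i, w p * (p : ℝ) ^ (-t) := Finset.sum_le_sum fun p hp =>
          mul_le_mul_of_nonneg_right (hcw i hi p (hS1 i hi p hp).2)
            (Real.rpow_nonneg (Nat.cast_nonneg _) _)
  have h3 : ∑ i ∈ s, c i * ((d i - δ) * LL t) =
      (∑ i ∈ s, c i * d i - δ * ∑ i ∈ s, c i) * LL t := by
    rw [Finset.mul_sum, ← Finset.sum_sub_distrib, Finset.sum_mul]
    exact Finset.sum_congr rfl fun i _ => by ring
  have h4 : (gap / 2) * LL t ≤ (∑ i ∈ s, c i * d i - δ * ∑ i ∈ s, c i - b) * LL t :=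
    mul_le_mul_of_nonneg_right (by rw [hgap] at hδ1 ⊢; linarith) hL
  nlinarith

/-- A set of lower density `≥ d` contained in a set of upper density `≤ η`. -/
theorem le_of_lowerDens_of_upperDens {X Y : Set ℕ} {d η : ℝ} (hXY : X ⊆ Y)
    (hX : LowerDens X d) (hY : UpperDens Y η) : d ≤ η := by
  by_contra hlt
  rw [not_le] at hlt
  obtain ⟨C, hC⟩ := hY
  refine false_of_eventually_mul_LL_le (a := (d - η) / 2) (C := C) (by linarith) ?_
  filter_upwards [hX.eventually (δ := (d - η) / 2) (by linarith), eventually_range] with t ht htr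
  obtain ⟨S, hS1, hS2⟩ := ht
  have := hC t htr.1 htr.2 S fun p hp => ⟨(hS1 p hp).1, hXY (hS1 p hp).2⟩
  nlinarith

/-- finite unions -/
theorem UpperDens.union {X Y : Set ℕ} {η θ : ℝ} (hX : UpperDens X η) (hY : UpperDens Y θ) :
    UpperDens (X ∪ Y) (η + θ) := by
  classical
  obtain ⟨C, hC⟩ := hX
  obtain ⟨D, hD⟩ := hY
  refine ⟨C + D, fun s h1 h2 S hS => ?_⟩
  rw [← Finset.sum_filter_add_sum_filter_not S (fun p => p ∈ X)]
  have a1 := hC s h1 h2 (S.filter fun p => p ∈ X) fun p hp =>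
    ⟨(hS p (Finset.mem_filter.1 hp).1).1, (Finset.mem_filter.1 hp).2⟩
  have a2 := hD s h1 h2 (S.filter fun p => ¬ p ∈ X) fun p hp =>
    ⟨(hS p (Finset.mem_filter.1 hp).1).1,
      (hS p (Finset.mem_filter.1 hp).1).2.resolve_left (Finset.mem_filter.1 hp).2⟩
  linarith

theorem UpperDens.mono {X Y : Set ℕ} {η : ℝ} (hXY : X ⊆ Y) (hY : UpperDens Y η) :
    UpperDens X η := by
  obtain ⟨C, hC⟩ := hY
  exact ⟨C, fun s h1 h2 S hS => hC s h1 h2 S fun p hp => ⟨(hS p hp).1, hXY (hS p hp).2⟩⟩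

theorem sub_sq_le_log_one_add {x : ℝ} (hx : 0 ≤ x) : x - x ^ 2 ≤ Real.log (1 + x) := by
  have h1 : (0 : ℝ) < 1 + x := by linarith
  refine le_trans ?_ (Real.one_sub_inv_le_log_of_pos h1)
  rw [← sub_nonneg]
  have : 1 - (1 + x)⁻¹ - (x - x ^ 2) = x ^ 3 / (1 + x) := by
    field_simp
    ring
  rw [this]
  positivity

/-- the constant `∑ 1 / n²` -/
theorem sum_rpow_neg_two_mul_le {S : Finset ℕ} {s : ℝ} (hs : 1 < s) (hS : ∀ p ∈ S, 1 ≤ p) :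
    ∑ p ∈ S, ((p : ℝ) ^ (-s)) ^ 2 ≤ ∑' n : ℕ, 1 / (n : ℝ) ^ 2 := by
  have hsum : Summable fun n : ℕ => 1 / (n : ℝ) ^ 2 :=
    Real.summable_one_div_nat_pow.2 (by norm_num)
  refine le_trans (Finset.sum_le_sum fun p hp => ?_) (hsum.sum_le_tsum S fun n _ => by positivity)
  have hp1 : (1 : ℝ) ≤ p := by exact_mod_cast hS p hp
  have hp0 : (0 : ℝ) < p := by linarith
  have h1 : (p : ℝ) ^ (-s) ≤ (p : ℝ) ^ (-1 : ℝ) :=
    Real.rpow_le_rpow_of_exponent_le hp1 (by linarith)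
  rw [Real.rpow_neg_one] at h1
  calc ((p : ℝ) ^ (-s)) ^ 2 ≤ ((p : ℝ)⁻¹) ^ 2 :=
        pow_le_pow_left₀ (Real.rpow_nonneg hp0.le _) h1 2
    _ = 1 / (p : ℝ) ^ 2 := by rw [inv_pow, one_div]

/-- taking logarithms in a product bound -/
theorem sum_le_of_prod_le {S : Finset ℕ} {x : ℕ → ℝ} {s C B : ℝ} (hs : 1 < s) (hC : 0 < C)
    (hS : ∀ p ∈ S, 1 ≤ p) (hx : ∀ p ∈ S, 0 ≤ x p ∧ x p ≤ B * (p : ℝ) ^ (-s))
    (h : ∏ p ∈ S, (1 + x p) ≤ C / (s - 1)) :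
    ∑ p ∈ S, x p ≤ LL s + (Real.log C + B ^ 2 * ∑' n : ℕ, 1 / (n : ℝ) ^ 2) := by
  have hs0 : 0 < s - 1 := sub_pos.2 hs
  have hpos : 0 < ∏ p ∈ S, (1 + x p) := Finset.prod_pos fun p hp => by linarith [(hx p hp).1]
  have h1 := Real.log_le_log hpos h
  rw [Real.log_prod (fun p hp => by linarith [(hx p hp).1]), div_eq_mul_one_div,
    Real.log_mul hC.ne' (by positivity)] at h1
  have h2 : ∑ p ∈ S, (x p - x p ^ 2) ≤ ∑ p ∈ S, Real.log (1 + x p) :=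
    Finset.sum_le_sum fun p hp => sub_sq_le_log_one_add (hx p hp).1
  rw [Finset.sum_sub_distrib] at h2
  have h3 : ∑ p ∈ S, x p ^ 2 ≤ B ^ 2 * ∑' n : ℕ, 1 / (n : ℝ) ^ 2 := by
    refine le_trans ?_ (mul_le_mul_of_nonneg_left (sum_rpow_neg_two_mul_le hs hS) (sq_nonneg B))
    rw [Finset.mul_sum]
    refine Finset.sum_le_sum fun p hp => ?_
    rw [← mul_pow]
    exact pow_le_pow_left₀ (hx p hp).1 (hx p hp).2 2
  unfold LL
  linarith

theorem ProdUpper.exists_pos {w : ℕ → ℝ} (h : ProdUpper w) :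
    ∃ C : ℝ, 0 < C ∧ ∀ s : ℝ, 1 < s → s ≤ 2 → ∀ S : Finset ℕ, (∀ p ∈ S, p.Prime) →
      ∏ p ∈ S, (1 + w p * (p : ℝ) ^ (-s)) ≤ C / (s - 1) := by
  obtain ⟨C, hC⟩ := h
  refine ⟨C, ?_, hC⟩
  have := hC 2 (by norm_num) le_rfl ∅ (by simp)
  norm_num at this
  linarith

/-- `log (1 + x) ≥ x - x² / 2` and `∑ p^{-2s} = O(1)`. -/
theorem ProdUpper.weightedUpper {w : ℕ → ℝ} (h : ProdUpper w) (B : ℝ)
    (hw : ∀ p, 0 ≤ w p ∧ w p ≤ B) : WeightedUpper w 1 := by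
  obtain ⟨C, hC0, hC⟩ := h.exists_pos
  refine ⟨Real.log C + B ^ 2 * ∑' n : ℕ, 1 / (n : ℝ) ^ 2, fun s h1 h2 S hS => ?_⟩
  rw [one_mul]
  refine sum_le_of_prod_le (x := fun p => w p * (p : ℝ) ^ (-s)) h1 hC0
    (fun p hp => (hS p hp).one_lt.le) (fun p _ => ⟨?_, ?_⟩) (hC s h1 h2 S hS)
  · exact mul_nonneg (hw p).1 (Real.rpow_nonneg (Nat.cast_nonneg _) _)
  · exact mul_le_mul_of_nonneg_right (hw p).2 (Real.rpow_nonneg (Nat.cast_nonneg _) _)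

/-- `log (1 + w p p^{-s}) ≥ log (1 + c p^{-s}) ≥ c p^{-s} - c² p^{-2s} / 2` on `{c ≤ w}`. -/
theorem ProdUpper.upperDens {w : ℕ → ℝ} (h : ProdUpper w) (_hw : ∀ p, 0 ≤ w p) (c : ℝ)
    (hc : 0 < c) : UpperDens {p | c ≤ w p} (1 / c) := by
  obtain ⟨C, hC0, hC⟩ := h.exists_pos
  refine ⟨(Real.log C + c ^ 2 * ∑' n : ℕ, 1 / (n : ℝ) ^ 2) / c, fun s h1 h2 S hS => ?_⟩
  have hle : ∏ p ∈ S, (1 + c * (p : ℝ) ^ (-s)) ≤ C / (s - 1) := by
    refine le_trans (Finset.prod_le_prod (fun p _ => ?_) fun p hp => ?_)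
      (hC s h1 h2 S fun p hp => (hS p hp).1)
    · have := Real.rpow_nonneg (Nat.cast_nonneg p : (0 : ℝ) ≤ p) (-s)
      positivity
    · have := mul_le_mul_of_nonneg_right (hS p hp).2
        (Real.rpow_nonneg (Nat.cast_nonneg p : (0 : ℝ) ≤ p) (-s))
      linarith
  have := sum_le_of_prod_le (x := fun p => c * (p : ℝ) ^ (-s)) (B := c) h1 hC0
    (fun p hp => (hS p hp).1.one_lt.le)
    (fun p _ => ⟨mul_nonneg hc.le (Real.rpow_nonneg (Nat.cast_nonneg _) _), le_rfl⟩) hle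
  rw [← Finset.mul_sum] at this
  rw [one_div, inv_mul_eq_div, ← add_div, le_div_iff₀ hc, mul_comm]
  exact this

end Fermat.Agent.S48
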