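import Fermat.Agent.S48.Defs

/-! # S48 core (K3): `ResidualGaloisRep k` versus matrices -/

set_option autoImplicit false

namespace Fermat.Agent.S48

open Polynomial

local notation "Qbar" => AlgebraicClosure ℚ
local notation "GQ" => (AlgebraicClosure ℚ ≃ₐ[ℚ] AlgebraicClosure ℚ)

/-- Choose a basis. -/
theorem exists_matrixRep {k : Type} [Field k] (ρ : ResidualGaloisRep k) :
    ∃ r : GQ →* GL (Fin 2) k, GaloisFactorsThroughFiniteLevel r ∧
      (∀ σ, ((r σ : GL (Fin 2) k) : Matrix (Fin 2) (Fin 2) k).charpoly =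
        LinearMap.charpoly (ρ.ρ σ)) ∧
      (∀ σ, r σ = 1 ↔ ρ.ρ σ = 1) ∧
      (ρ.IsIrreducible → (Deformation.matrixRepresentation r).IsIrreducible) := by
  classical
  let b : Module.Basis (Fin 2) k ρ.V := Module.finBasisOfFinrankEq k ρ.V ρ.finrank_eq
  let f : GQ →* Matrix (Fin 2) (Fin 2) k :=
    (LinearMap.toMatrixAlgEquiv b : Module.End k ρ.V ≃ₐ[k] Matrix (Fin 2) (Fin 2) k).toMonoidHom.comp ρ.ρ
  let r : GQ →* GL (Fin 2) k := f.toHomUnits
  have hr : ∀ σ, ((r σ : GL (Fin 2) k) : Matrix (Fin 2) (Fin 2) k) = LinearMap.toMatrix b b (ρ.ρ σ) :=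
    fun σ => rfl
  have hone : ∀ σ, r σ = 1 ↔ ρ.ρ σ = 1 := by
    intro σ
    constructor
    · intro h
      have h1 : LinearMap.toMatrixAlgEquiv b (ρ.ρ σ) = LinearMap.toMatrixAlgEquiv b 1 := by
        rw [map_one]
        exact congrArg Units.val h
      exact (LinearMap.toMatrixAlgEquiv b).injective h1
    · intro h
      apply Units.ext
      show LinearMap.toMatrixAlgEquiv b (ρ.ρ σ) = 1
      rw [h, map_one]
  refine ⟨r, ?_, fun σ => ?_, hone, fun hirr => ?_⟩
  · obtain ⟨L, hL, h⟩ := ρ.factorsThroughFiniteLevel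
    exact ⟨L, hL, fun σ hσ => (hone σ).mpr (h σ hσ)⟩
  · rw [hr, LinearMap.charpoly_toMatrix]
  · have hnt : Nontrivial (Subrepresentation (Deformation.matrixRepresentation r)) := by
      refine ⟨⊥, ⊤, fun h => ?_⟩
      have h1 : (⊥ : Submodule k (Fin 2 → k)) = ⊤ := congrArg Subrepresentation.toSubmodule h
      exact bot_ne_top h1
    refine { hnt with eq_bot_or_eq_top := fun s => ?_ }
    have hst : ∀ σ : GQ, ∀ x ∈ s.toSubmodule.comap (b.equivFun : ρ.V →ₗ[k] (Fin 2 → k)),
        ρ.ρ σ x ∈ s.toSubmodule.comap (b.equivFun : ρ.V →ₗ[k] (Fin 2 → k)) := by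
      intro σ x hx
      rw [Submodule.mem_comap] at hx ⊢
      have h1 := s.apply_mem_toSubmodule σ hx
      rw [Deformation.matrixRepresentation_apply, Matrix.mulVecLin_apply, hr] at h1
      have h2 := LinearMap.toMatrix_mulVec_repr b b (ρ.ρ σ) x
      have h3 : (b.equivFun : ρ.V →ₗ[k] (Fin 2 → k)) (ρ.ρ σ x) =
          (LinearMap.toMatrix b b (ρ.ρ σ)).mulVec ((b.equivFun : ρ.V →ₗ[k] (Fin 2 → k)) x) :=
        h2.symm
      rw [h3]
      exact h1
    rcases hirr _ hst with h | h
    · left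
      apply Subrepresentation.toSubmodule_injective
      show s.toSubmodule = ⊥
      rw [eq_bot_iff]
      intro y hy
      have h1 : b.equivFun.symm y ∈ s.toSubmodule.comap (b.equivFun : ρ.V →ₗ[k] (Fin 2 → k)) := by
        rw [Submodule.mem_comap]
        show b.equivFun (b.equivFun.symm y) ∈ s.toSubmodule
        rw [LinearEquiv.apply_symm_apply]
        exact hy
      rw [h, Submodule.mem_bot] at h1
      rw [Submodule.mem_bot]
      have h2 := congrArg b.equivFun h1
      rwa [LinearEquiv.apply_symm_apply, map_zero] at h2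
    · right
      apply Subrepresentation.toSubmodule_injective
      show s.toSubmodule = ⊤
      rw [eq_top_iff]
      intro y _
      have h1 : b.equivFun.symm y ∈ s.toSubmodule.comap (b.equivFun : ρ.V →ₗ[k] (Fin 2 → k)) := by
        rw [h]; trivial
      rw [Submodule.mem_comap] at h1
      have h2 : b.equivFun (b.equivFun.symm y) ∈ s.toSubmodule := h1
      rwa [LinearEquiv.apply_symm_apply] at h2

/-- Conversely. -/
theorem exists_residual_of_matrix {k : Type} [Field k]
    (r : GQ →* Matrix (Fin 2) (Fin 2) k) (hr : GaloisFactorsThroughFiniteLevel r) :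
    ∃ ρ : ResidualGaloisRep k,
      (∀ σ, LinearMap.charpoly (ρ.ρ σ) = (r σ).charpoly) ∧ (∀ σ, ρ.ρ σ = 1 ↔ r σ = 1) := by
  classical
  let e : Matrix (Fin 2) (Fin 2) k ≃ₐ[k] Module.End k (Fin 2 → k) := Matrix.toLinAlgEquiv'
  have hone : ∀ σ, e (r σ) = 1 ↔ r σ = 1 := by
    intro σ
    constructor
    · intro h
      exact e.injective (by rw [h, map_one])
    · intro h
      rw [h, map_one]
  obtain ⟨L, hL, h⟩ := hr
  refine ⟨{ V := Fin 2 → k
            finrank_eq := by simp
            ρ := e.toMonoidHom.comp r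
            factorsThroughFiniteLevel := ⟨L, hL, fun σ hσ => (hone σ).mpr (h σ hσ)⟩ },
    fun σ => ?_, hone⟩
  show LinearMap.charpoly (Matrix.toLin' (r σ)) = _
  rw [← LinearMap.charpoly_toMatrix (Matrix.toLin' (r σ)) (Pi.basisFun k (Fin 2)),
    LinearMap.toMatrix_eq_toMatrix', LinearMap.toMatrix'_toLin']

/-- A homomorphism of finite level has finite range. -/
theorem finite_range_of_finiteLevel {M : Type} [Monoid M] (r : GQ →* M)
    (hr : GaloisFactorsThroughFiniteLevel r) : (Set.range r).Finite := by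
  obtain ⟨L, hL, h⟩ := hr
  have h1 : Algebra.IsAlgebraic ℚ (AlgebraicClosure ℚ) := AlgebraicClosure.isAlgebraic ℚ
  have h2 : IsAlgClosure ℚ (AlgebraicClosure ℚ) := ⟨inferInstance, inferInstance⟩
  have h3 : Normal ℚ (AlgebraicClosure ℚ) := IsAlgClosure.normal ℚ (AlgebraicClosure ℚ)
  have h4 : IsGalois ℚ (AlgebraicClosure ℚ) := {}
  have hfi : L.fixingSubgroup.FiniteIndex := by
    constructor
    rw [← IntermediateField.finrank_eq_fixingSubgroup_index]
    exact Module.finrank_pos.ne'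
  have hfin : Finite (GQ ⧸ L.fixingSubgroup) := Subgroup.finite_quotient_of_finiteIndex
  have hker : ∀ s ∈ L.fixingSubgroup, r s = 1 := fun s hs =>
    h s ((IntermediateField.mem_fixingSubgroup_iff _ _).mp hs)
  let f : GQ ⧸ L.fixingSubgroup → M := Quotient.lift r (by
    intro a b hab
    have h5 : a⁻¹ * b ∈ L.fixingSubgroup := QuotientGroup.leftRel_apply.mp hab
    have h6 := hker _ h5
    have h7 : r b = r a * r (a⁻¹ * b) := by rw [← map_mul, mul_inv_cancel_left]
    rw [h7, h6, mul_one])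
  refine (Set.finite_range f).subset ?_
  rintro _ ⟨σ, rfl⟩
  exact ⟨QuotientGroup.mk σ, rfl⟩

end Fermat.Agent.S48
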