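import Fermat.Agent.S48.Cheb
import Fermat.Agent.S48.Group.Main
import Fermat.Agent.S48.Core.Dens
import Fermat.Agent.S48.Core.Mat

/-! # S48 core (K4): the eigenvalues of all `ρ̄_ℓ` have bounded order

`η = 1/24`, `Y` from `hfin`, `P = {X² - φ (y w) X + φ z : y ∈ Y, w ^ n = 1, z ^ n = 1}`,
`#P ≤ M₀ := #Y * n * n`,
`G = range r` (`r` from `exists_matrixRep`), `C = {charpoly ∉ P}`,
`FrobSet r C (primes dividing N ℓ) ⊆ {p | a p ∉ Y}`, so `#(C ∩ G)/#G ≤ 1/24` by `chebotarev` and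
`le_of_lowerDens_of_upperDens`; conclude by `eigenvalue_pow_eq_one` with `m = (48 M₀)!`,
`ℓ₀ = 2 M₀ + 3`. -/

set_option autoImplicit false

namespace Fermat.Agent.S48

open Polynomial

local notation "Qbar" => AlgebraicClosure ℚ
local notation "GQ" => (AlgebraicClosure ℚ ≃ₐ[ℚ] AlgebraicClosure ℚ)

section aux

variable {k : Type*} [Field k]

theorem quad_inj {a b a' b' : k}
    (h : (X ^ 2 - C a * X + C b : k[X]) = X ^ 2 - C a' * X + C b') : a = a' ∧ b = b' := by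
  have h1 := congrArg (fun p : k[X] => p.coeff 1) h
  have h0 := congrArg (fun p : k[X] => p.coeff 0) h
  simp [coeff_X, coeff_C] at h1 h0
  exact ⟨h1, h0⟩

theorem charpoly_gl_two (g : GL (Fin 2) k) :
    (g : Matrix (Fin 2) (Fin 2) k).charpoly =
      X ^ 2 - C (g : Matrix (Fin 2) (Fin 2) k).trace * X + C (g : Matrix (Fin 2) (Fin 2) k).det :=
  Matrix.charpoly_fin_two _

theorem det_gl_ne_zero (g : GL (Fin 2) k) : (g : Matrix (Fin 2) (Fin 2) k).det ≠ 0 := by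
  have h := (Matrix.isUnit_iff_isUnit_det _).mp g.isUnit
  exact h.ne_zero

theorem det_gl_inv (g : GL (Fin 2) k) :
    ((g⁻¹ : GL (Fin 2) k) : Matrix (Fin 2) (Fin 2) k).det =
      ((g : Matrix (Fin 2) (Fin 2) k).det)⁻¹ := by
  have h : ((g⁻¹ : GL (Fin 2) k) : Matrix (Fin 2) (Fin 2) k).det *
      (g : Matrix (Fin 2) (Fin 2) k).det = 1 := by
    rw [← Matrix.det_mul, ← Units.val_mul, inv_mul_cancel, Units.val_one, Matrix.det_one]
  exact eq_inv_of_mul_eq_one_left h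

theorem trace_gl_inv (g : GL (Fin 2) k) :
    ((g⁻¹ : GL (Fin 2) k) : Matrix (Fin 2) (Fin 2) k).trace =
      (g : Matrix (Fin 2) (Fin 2) k).trace * ((g : Matrix (Fin 2) (Fin 2) k).det)⁻¹ := by
  rw [Matrix.coe_units_inv, Matrix.inv_def, Matrix.trace_smul, Matrix.adjugate_fin_two,
    Ring.inverse_eq_inv']
  simp [Matrix.trace_fin_two]
  ring

end aux

theorem exists_exponent (N : ℕ) (hN : N ≠ 0) (a e : ℕ → OO) (n : ℕ) (hn : n ≠ 0)
    (he : ∀ p, e p ^ n = 1 ∨ e p = 0)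
    (hfin : ∀ η : ℝ, 0 < η → ∃ Y : Finset OO, UpperDens {p | a p ∉ Y} η) :
    ∃ m ℓ₀ : ℕ, m ≠ 0 ∧ ∀ ℓ : ℕ, ℓ.Prime → ℓ₀ ≤ ℓ →
      ∀ (k : Type) [Field k] [IsAlgClosed k] (φ : OO →+* k), (ℓ : k) = 0 →
      ∀ ρ : ResidualGaloisRep k, Attached ρ (N * ℓ) (fun p => φ (a p)) (fun p => φ (e p)) →
      ∀ (σ : GQ) (α : k), (LinearMap.charpoly (ρ.ρ σ)).IsRoot α → α ^ m = 1 := by
  classical
  obtain ⟨Y, hY⟩ := hfin (1 / 24) (by norm_num)
  set Z : Finset OO := (nthRoots n (1 : OO)).toFinset with hZ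
  have hZmem : ∀ z : OO, z ∈ Z ↔ z ^ n = 1 := by
    intro z
    rw [hZ, Multiset.mem_toFinset, mem_nthRoots (Nat.pos_of_ne_zero hn)]
  set I : Finset (OO × OO × OO) := Y ×ˢ Z ×ˢ Z with hI
  set M₀ : ℕ := I.card with hM₀
  refine ⟨(48 * M₀).factorial, 2 * (M₀ + 1) + 1, Nat.factorial_ne_zero _, ?_⟩
  intro ℓ hℓ hℓ₀ k _ _ φ hφℓ ρ hρ σ α hα
  set P : Finset k[X] :=
    I.image (fun t => X ^ 2 - C (φ (t.1 * t.2.1)) * X + C (φ t.2.2)) with hP
  have hPcard : P.card ≤ M₀ := Finset.card_image_le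
  have hPmem : ∀ f : k[X], f ∈ P ↔ ∃ y ∈ Y, ∃ w, w ^ n = 1 ∧ ∃ z, z ^ n = 1 ∧
      f = X ^ 2 - C (φ (y * w)) * X + C (φ z) := by
    intro f
    rw [hP, Finset.mem_image]
    constructor
    · rintro ⟨⟨y, w, z⟩, ht, rfl⟩
      rw [hI, Finset.mem_product, Finset.mem_product] at ht
      exact ⟨y, ht.1, w, (hZmem w).mp ht.2.1, z, (hZmem z).mp ht.2.2, rfl⟩
    · rintro ⟨y, hy, w, hw, z, hz, rfl⟩
      refine ⟨(y, w, z), ?_, rfl⟩
      rw [hI, Finset.mem_product, Finset.mem_product]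
      exact ⟨hy, (hZmem w).mpr hw, (hZmem z).mpr hz⟩
  -- `P` is stable under `charpoly g ↦ charpoly g⁻¹`
  have hPinv : ∀ g : GL (Fin 2) k, (g : Matrix (Fin 2) (Fin 2) k).charpoly ∈ P →
      ((g⁻¹ : GL (Fin 2) k) : Matrix (Fin 2) (Fin 2) k).charpoly ∈ P := by
    intro g hg
    obtain ⟨y, hy, w, hw, z, hz, hf⟩ := (hPmem _).mp hg
    rw [charpoly_gl_two] at hf
    obtain ⟨htr, hdet⟩ := quad_inj hf
    have hz1 : z * z ^ (n - 1) = 1 := by
      rw [← pow_succ', Nat.sub_add_cancel (Nat.pos_of_ne_zero hn), hz]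
    have hφz : (φ z)⁻¹ = φ (z ^ (n - 1)) := by
      have : φ z * φ (z ^ (n - 1)) = 1 := by rw [← map_mul, hz1, map_one]
      exact inv_eq_of_mul_eq_one_right this
    refine (hPmem _).mpr ⟨y, hy, w * z ^ (n - 1), ?_, z ^ (n - 1), ?_, ?_⟩
    · rw [mul_pow, hw, one_mul, ← pow_mul, mul_comm, pow_mul, hz, one_pow]
    · rw [← pow_mul, mul_comm, pow_mul, hz, one_pow]
    · rw [charpoly_gl_two, trace_gl_inv, det_gl_inv, htr, hdet, hφz, ← map_mul, mul_assoc]
  obtain ⟨r, hr, hrchar, -, -⟩ := exists_matrixRep ρ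
  set Cs : Set (GL (Fin 2) k) := {g | (g : Matrix (Fin 2) (Fin 2) k).charpoly ∉ P} with hCs
  set T : Finset ℕ := (N * ℓ).divisors with hT
  have hNℓ : N * ℓ ≠ 0 := mul_ne_zero hN hℓ.ne_zero
  have hcheb := chebotarev r hr Cs
    (by
      intro σ τ hτ
      rw [hCs, Set.mem_ofPred_eq] at hτ ⊢
      rw [map_mul, map_mul, map_inv, Units.val_mul, Units.val_mul, Matrix.coe_units_inv,
        Matrix.charpoly_units_conj]
      exact hτ)
    (by
      intro τ hτ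
      rw [hCs, Set.mem_ofPred_eq] at hτ ⊢
      intro h
      apply hτ
      have := hPinv _ h
      rwa [map_inv, inv_inv] at this)
    T
  have hsub : FrobSet r Cs T ⊆ {p | a p ∉ Y} := by
    rintro p ⟨hp, hpT, A, τ, hA, hτ, hC⟩ hy
    apply hC
    have hpd : ¬ p ∣ N * ℓ := fun h => hpT (Nat.mem_divisors.mpr ⟨h, hNℓ⟩)
    have h1 : LinearMap.charpoly (ρ.ρ τ) = X ^ 2 - C (φ (a p)) * X + C (φ (e p)) :=
      (hρ p hp hpd).2 A hA τ hτ
    rw [← hrchar] at h1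
    have h2 := h1
    rw [charpoly_gl_two] at h2
    have hdet := (quad_inj h2).2
    have hep : e p ^ n = 1 := by
      rcases he p with h | h
      · exact h
      · exfalso
        apply det_gl_ne_zero (r τ)
        rw [hdet, h, map_zero]
    exact (hPmem _).mpr ⟨a p, hy, 1, one_pow n, e p, hep, by rw [h1, mul_one]⟩
  have hle := le_of_lowerDens_of_upperDens hsub hcheb hY
  set G : Subgroup (GL (Fin 2) k) := r.range with hG
  have hfinR : (Set.range r).Finite := finite_range_of_finiteLevel r hr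
  have hGfin : Finite G := by
    have : Finite (Set.range r) := hfinR
    exact Finite.of_equiv (Set.range r) (Equiv.subtypeEquivRight fun x => by
      rw [hG, MonoidHom.mem_range]; rfl)
  have hc1 : Nat.card (Set.range r) = Nat.card G :=
    Nat.card_congr (Equiv.subtypeEquivRight fun x => by rw [hG, MonoidHom.mem_range]; rfl)
  have hc2 : Nat.card {x : Set.range r // (x : GL (Fin 2) k) ∈ Cs} =
      Nat.card {g : G // ((g : GL (Fin 2) k) : Matrix (Fin 2) (Fin 2) k).charpoly ∉ P} :=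
    Nat.card_congr (Equiv.subtypeEquiv
      (Equiv.subtypeEquivRight fun x => by rw [hG, MonoidHom.mem_range]; rfl)
      (fun x => Iff.rfl))
  have hGpos : 0 < Nat.card G := Nat.card_pos
  have hPG : 24 * Nat.card {g : G // ((g : GL (Fin 2) k) : Matrix (Fin 2) (Fin 2) k).charpoly ∉ P}
      ≤ Nat.card G := by
    rw [hc1, hc2, div_le_iff₀ (by exact_mod_cast hGpos)] at hle
    have : (24 : ℝ) * (Nat.card
        {g : G // ((g : GL (Fin 2) k) : Matrix (Fin 2) (Fin 2) k).charpoly ∉ P} : ℝ) ≤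
        (Nat.card G : ℝ) := by linarith
    exact_mod_cast this
  have hchar : ∀ ℓ' : ℕ, ℓ'.Prime → (ℓ' : k) = 0 → 2 * (P.card + 1) < ℓ' := by
    intro ℓ' hℓ' h0
    have hEq : ℓ' = ℓ := by
      by_contra hne
      have hco : Nat.Coprime ℓ' ℓ := (Nat.coprime_primes hℓ' hℓ).mpr hne
      have h1 : ((Nat.gcd ℓ' ℓ : ℤ) : k) = 0 := by
        rw [Nat.gcd_eq_gcd_ab]
        push_cast
        rw [h0, hφℓ]
        ring
      rw [hco] at h1
      simp at h1
    rw [hEq]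
    omega
  have hfinal := eigenvalue_pow_eq_one G P hPG hchar (r σ) ⟨σ, rfl⟩ α (by rw [hrchar]; exact hα)
  obtain ⟨c, hc⟩ := Nat.factorial_dvd_factorial (Nat.mul_le_mul_left 48 hPcard)
  rw [hc, pow_mul, hfinal, one_pow]

end Fermat.Agent.S48
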