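import Fermat.Agent.S48.Core.Mat
import Fermat.Agent.Cheb.Toolkit

/-! # S48 core (K8): two auxiliary primes

`ρ, ρ'` have the same characteristic polynomials (`Cheb.charpoly_map_eq_residual` with
`π = RingHom.id ℂ`, `T` = primes dividing `N ℓ ℓ'`).  Inertia at `ℓ`: `ρ' σ = 1`, so `ρ σ` is
unipotent of finite order over `ℂ`, hence `1`.  Frobenius at `ℓ`: read off from `ρ'`. -/

set_option autoImplicit false

namespace Fermat.Agent.S48

open Polynomial

local notation "Qbar" => AlgebraicClosure ℚ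
local notation "GQ" => (AlgebraicClosure ℚ ≃ₐ[ℚ] AlgebraicClosure ℚ)

theorem one_add_pow_of_sq_eq_zero {R : Type*} [Ring R] {ν : R} (h : ν * ν = 0) (n : ℕ) :
    (1 + ν) ^ n = 1 + n • ν := by
  induction n with
  | zero => simp
  | succ n ih =>
    rw [pow_succ, ih, add_mul, mul_add, mul_add, smul_mul_assoc, smul_mul_assoc, h, succ_nsmul]
    simp only [one_mul, mul_one, smul_zero, add_zero]
    abel

/-- every element of the image of a representation of finite level has finite order -/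
theorem exists_pow_eq_one_of_finiteLevel {M : Type} [Monoid M] (r : GQ →* M)
    (hr : GaloisFactorsThroughFiniteLevel r) (σ : GQ) : ∃ n : ℕ, 0 < n ∧ r σ ^ n = 1 := by
  obtain ⟨a, b, hab, h⟩ := Set.Finite.exists_lt_map_eq_of_forall_mem
    (f := fun n : ℕ => r (σ ^ n)) (fun n => Set.mem_range_self _)
    (finite_range_of_finiteLevel r hr)
  refine ⟨b - a, Nat.sub_pos_of_lt hab, ?_⟩
  have h1 : σ ^ (b - a) = (σ ^ a)⁻¹ * σ ^ b := by
    rw [eq_inv_mul_iff_mul_eq, ← pow_add, Nat.add_sub_cancel' hab.le]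
  have h2 : r (σ ^ a) = r (σ ^ b) := h
  rw [← map_pow, h1, map_mul, ← h2, ← map_mul, inv_mul_cancel, map_one]

/-- a unipotent endomorphism of finite order of a `2`-dimensional complex vector space is `1` -/
theorem eq_one_of_charpoly_eq {V : Type} [AddCommGroup V] [Module ℂ V] [Module.Finite ℂ V]
    (u : Module.End ℂ V) (hu : LinearMap.charpoly u = (X - 1) ^ 2) {n : ℕ} (hn : 0 < n)
    (hun : u ^ n = 1) : u = 1 := by
  have h1 := LinearMap.aeval_self_charpoly u
  rw [hu] at h1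
  simp only [map_pow, map_sub, aeval_X, map_one] at h1
  have h2 : (u - 1) * (u - 1) = 0 := by rw [← sq]; exact h1
  have h3 := one_add_pow_of_sq_eq_zero h2 n
  rw [add_sub_cancel, hun] at h3
  have h4 : n • (u - 1) = 0 := by
    have := h3.symm
    rwa [add_eq_left] at this
  have h5 : ((n : ℂ)) • (u - 1) = 0 := by rw [Nat.cast_smul_eq_nsmul]; exact h4
  rcases smul_eq_zero.1 h5 with h6 | h6
  · have : n = 0 := by exact_mod_cast h6
    omega
  · exact sub_eq_zero.1 h6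

theorem attached_of_two (N ℓ ℓ' : ℕ) (hN : N ≠ 0) (hℓ : ℓ.Prime) (hℓ' : ℓ'.Prime) (hne : ℓ ≠ ℓ')
    (t d : ℕ → ℂ) (ρ ρ' : ResidualGaloisRep ℂ) (h : Attached ρ (N * ℓ) t d)
    (h' : Attached ρ' (N * ℓ') t d) : Attached ρ N t d := by
  have hcp : ∀ σ : GQ, LinearMap.charpoly (ρ.ρ σ) = LinearMap.charpoly (ρ'.ρ σ) := by
    intro σ
    have := Cheb.charpoly_map_eq_residual (RingHom.id ℂ) ρ ρ' (N * ℓ * ℓ').primeFactors
      (fun q hq hqT A hA τ hτ => by
        have hnd : ¬ q ∣ N * ℓ * ℓ' := fun hd =>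
          hqT (Nat.mem_primeFactors.2 ⟨hq, hd, mul_ne_zero (mul_ne_zero hN hℓ.ne_zero) hℓ'.ne_zero⟩)
        have h1 : ¬ q ∣ N * ℓ := fun hd => hnd (Dvd.dvd.mul_right hd _)
        have h2 : ¬ q ∣ N * ℓ' := fun hd => hnd (by
          rw [mul_right_comm]; exact Dvd.dvd.mul_right hd _)
        rw [Polynomial.map_id, (h q hq h1).2 A hA τ hτ, (h' q hq h2).2 A hA τ hτ]) σ
    rwa [Polynomial.map_id] at this
  intro p hp hpN
  by_cases hpℓ : p = ℓ
  · subst hpℓ
    have h1 : ¬ p ∣ N * ℓ' := fun hd => by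
      rcases (Nat.Prime.dvd_mul hp).1 hd with h2 | h2
      · exact hpN h2
      · exact hne ((Nat.prime_dvd_prime_iff_eq hp hℓ').1 h2)
    obtain ⟨hu, hf⟩ := h' p hp h1
    refine ⟨fun A hA σ hσ => ?_, fun A hA σ hσ => by rw [hcp]; exact hf A hA σ hσ⟩
    obtain ⟨n, hn, hn1⟩ := exists_pow_eq_one_of_finiteLevel ρ.ρ ρ.factorsThroughFiniteLevel σ
    refine eq_one_of_charpoly_eq _ ?_ hn hn1
    rw [hcp, hu A hA σ hσ, LinearMap.charpoly_one, ρ'.finrank_eq]
  · have h1 : ¬ p ∣ N * ℓ := fun hd => by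
      rcases (Nat.Prime.dvd_mul hp).1 hd with h2 | h2
      · exact hpN h2
      · exact hpℓ ((Nat.prime_dvd_prime_iff_eq hp hℓ).1 h2)
    exact h p hp h1

end Fermat.Agent.S48
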