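import Fermat.Agent.S48.Cheb
import Fermat.Agent.S48.Core.Dens
import Fermat.Agent.S48.Core.Mat

/-! # S48 core (K9): irreducibility from the Rankin bound

If `W` is a stable line, `tr ρ = χ₁ + χ₂` with `χᵢ : GQ → ℂˣ` of finite order; with `G` the
(finite) range of `(χ₁, χ₂)`, `∑_{g ∈ G} |χ₁ + χ₂|² = 2 #G + 2 Re ∑ χ₁ χ₂⁻¹ ≥ 2 #G`.  Apply
`chebotarev` to the sets `{g | tr g = z}` and `sum_le_of_lowerDens_of_weightedUpper`:
`2 ≤ 1`. -/

set_option autoImplicit false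

namespace Fermat.Agent.S48

open Polynomial

local notation "Qbar" => AlgebraicClosure ℚ
local notation "GQ" => (AlgebraicClosure ℚ ≃ₐ[ℚ] AlgebraicClosure ℚ)

namespace Irred

/-- the character by which a group acts on a stable line `ℂ w`. -/
theorem exists_char {G V : Type} [Group G] [AddCommGroup V] [Module ℂ V] (ρ : G →* Module.End ℂ V)
    (w : V) (hw : w ≠ 0) (hst : ∀ σ, ∃ c : ℂ, ρ σ w = c • w) :
    ∃ χ : G →* ℂˣ, ∀ σ, ρ σ w = (χ σ : ℂ) • w := by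
  choose c hc using hst
  have hinj : ∀ a b : ℂ, a • w = b • w → a = b := fun a b h => by
    by_contra hab
    have : (a - b) • w = 0 := by rw [sub_smul, h, sub_self]
    rcases smul_eq_zero.1 this with h1 | h1
    · exact hab (sub_eq_zero.1 h1)
    · exact hw h1
  let χ' : G →* ℂ :=
    { toFun := c
      map_one' := hinj _ _ (by rw [← hc, map_one, one_smul]; rfl)
      map_mul' := fun σ τ => hinj _ _ (by
        rw [← hc, map_mul, Module.End.mul_apply, hc τ, map_smul, hc σ, smul_smul, mul_comm]) }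
  exact ⟨χ'.toHomUnits, fun σ => hc σ⟩

theorem conj_eq_inv {y : ℂ} (h : ‖y‖ = 1) : (starRingEnd ℂ) y = y⁻¹ := by
  apply eq_inv_of_mul_eq_one_right
  rw [Complex.mul_conj, Complex.normSq_eq_norm_sq, h]
  norm_num

/-- the function `|x + δ/x|²` on `ℂˣ × ℂˣ`. -/
noncomputable def phi (g : ℂˣ × ℂˣ) : ℝ := ‖(g.1 : ℂ) + (g.2 : ℂ) / (g.1 : ℂ)‖ ^ 2

theorem phi_eq {g : ℂˣ × ℂˣ} (h1 : ‖(g.1 : ℂ)‖ = 1) (h2 : ‖(g.2 : ℂ)‖ = 1) :
    phi g = 2 + 2 * ((g.1 : ℂ) ^ 2 / (g.2 : ℂ)).re := by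
  have hx := conj_eq_inv h1
  have hd := conj_eq_inv h2
  have hn : ‖(g.2 : ℂ) / (g.1 : ℂ)‖ = 1 := by rw [norm_div, h1, h2, div_one]
  unfold phi
  rw [Complex.sq_norm, Complex.normSq_add, ← Complex.sq_norm, ← Complex.sq_norm, h1, hn, map_div₀,
    hx, hd]
  have e : (g.1 : ℂ) * ((g.2 : ℂ)⁻¹ / (g.1 : ℂ)⁻¹) = (g.1 : ℂ) ^ 2 / (g.2 : ℂ) := by
    field_simp
  rw [e]
  ring

theorem phi_le_four {g : ℂˣ × ℂˣ} (h1 : ‖(g.1 : ℂ)‖ = 1) (h2 : ‖(g.2 : ℂ)‖ = 1) : phi g ≤ 4 := by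
  have : ‖(g.1 : ℂ) + (g.2 : ℂ) / (g.1 : ℂ)‖ ≤ 2 := by
    refine (norm_add_le _ _).trans ?_
    rw [norm_div, h1, h2]; norm_num
  unfold phi
  nlinarith [norm_nonneg ((g.1 : ℂ) + (g.2 : ℂ) / (g.1 : ℂ))]

theorem phi_inv {g : ℂˣ × ℂˣ} (h1 : ‖(g.1 : ℂ)‖ = 1) (h2 : ‖(g.2 : ℂ)‖ = 1) : phi g⁻¹ = phi g := by
  have h1' : ‖((g⁻¹).1 : ℂ)‖ = 1 := by simp [h1]
  have h2' : ‖((g⁻¹).2 : ℂ)‖ = 1 := by simp [h2]
  rw [phi_eq h1 h2, phi_eq h1' h2']
  have hn : ‖(g.1 : ℂ) ^ 2 / (g.2 : ℂ)‖ = 1 := by rw [norm_div, norm_pow, h1, h2]; norm_num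
  have e : ((g⁻¹).1 : ℂ) ^ 2 / ((g⁻¹).2 : ℂ) = (starRingEnd ℂ) ((g.1 : ℂ) ^ 2 / (g.2 : ℂ)) := by
    rw [conj_eq_inv hn]
    simp only [Prod.fst_inv, Prod.snd_inv, Units.val_inv_eq_inv_val]
    field_simp
  rw [e, Complex.conj_re]

theorem norm_eq_one_of_mem (H : Subgroup (ℂˣ × ℂˣ)) [Fintype H] (g : H) :
    ‖((g : ℂˣ × ℂˣ).1 : ℂ)‖ = 1 ∧ ‖((g : ℂˣ × ℂˣ).2 : ℂ)‖ = 1 := by
  have h := pow_card_eq_one (x := g)
  have h' : (g : ℂˣ × ℂˣ) ^ Fintype.card H = 1 := by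
    have := congrArg (Subtype.val) h
    rwa [Subgroup.coe_pow, Subgroup.coe_one] at this
  have hc : Fintype.card H ≠ 0 := Fintype.card_ne_zero
  constructor
  · apply Complex.norm_eq_one_of_pow_eq_one _ hc
    have := congrArg (fun z : ℂˣ × ℂˣ => (z.1 : ℂ)) h'
    simpa using this
  · apply Complex.norm_eq_one_of_pow_eq_one _ hc
    have := congrArg (fun z : ℂˣ × ℂˣ => (z.2 : ℂ)) h'
    simpa using this

/-- mean value of `phi` on a finite subgroup. -/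
theorem two_mul_card_le_sum (H : Subgroup (ℂˣ × ℂˣ)) [Fintype H] :
    2 * (Fintype.card H : ℝ) ≤ ∑ g : H, phi (g : ℂˣ × ℂˣ) := by
  classical
  have hn := norm_eq_one_of_mem H
  let ψ : H →* ℂ :=
    { toFun := fun g => ((g : ℂˣ × ℂˣ).1 : ℂ) ^ 2 / ((g : ℂˣ × ℂˣ).2 : ℂ)
      map_one' := by simp
      map_mul' := fun g h => by
        simp only [Subgroup.coe_mul, Prod.fst_mul, Prod.snd_mul, Units.val_mul]
        field_simp }
  have h1 : ∀ g : H, phi (g : ℂˣ × ℂˣ) = 2 + 2 * (ψ g).re := fun g =>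
    phi_eq (hn g).1 (hn g).2
  simp only [h1, Finset.sum_add_distrib, Finset.sum_const, Finset.card_univ, nsmul_eq_mul,
    ← Finset.mul_sum, ← Complex.re_sum]
  rw [sum_hom_units ψ]
  split_ifs
  · simp
  · simp [mul_comm]

end Irred

open Irred in
/-- irreducibility from the TRUNCATED Rankin bound. -/
theorem isIrreducible_of_rankin_min (N : ℕ) (hN : N ≠ 0) (t d : ℕ → ℂ) (ρ : ResidualGaloisRep ℂ)
    (h : Attached ρ N t d)
    (hr : WeightedUpper (fun p => if p ∣ N then 0 else min (‖t p‖ ^ 2) 4) 1) :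
    ρ.IsIrreducible := by
  classical
  intro W hW
  by_contra hcon
  push Not at hcon
  obtain ⟨hbot, htop⟩ := hcon
  -- `W` is a line
  have hfr : Module.finrank ℂ W = 1 := by
    have h1 : Module.finrank ℂ W < 2 := by
      rw [← ρ.finrank_eq]; exact Submodule.finrank_lt htop
    have h2 : 0 < Module.finrank ℂ W := by
      rw [Module.finrank_pos_iff_exists_ne_zero]
      obtain ⟨w, hw, hw0⟩ := Submodule.exists_mem_ne_zero_of_ne_bot hbot
      exact ⟨⟨w, hw⟩, fun h0 => hw0 (congrArg Subtype.val h0)⟩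
    omega
  obtain ⟨w, hw, hw0⟩ := Submodule.exists_mem_ne_zero_of_ne_bot hbot
  have hline : ∀ x ∈ W, ∃ c : ℂ, x = c • w := by
    intro x hx
    obtain ⟨c, hc⟩ := (finrank_eq_one_iff_of_nonzero' (⟨w, hw⟩ : W)
      (fun h0 => hw0 (congrArg Subtype.val h0))).1 hfr ⟨x, hx⟩
    exact ⟨c, (congrArg Subtype.val hc).symm⟩
  obtain ⟨χ, hχ⟩ := exists_char ρ.ρ w hw0 (fun σ => hline _ (hW σ w hw))
  let δ : GQ →* ℂˣ := (LinearMap.det.comp ρ.ρ).toHomUnits
  have hδ : ∀ σ, (δ σ : ℂ) = LinearMap.det (ρ.ρ σ) := fun σ => rfl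
  let r : GQ →* ℂˣ × ℂˣ := χ.prod δ
  have hrfin : GaloisFactorsThroughFiniteLevel r := by
    obtain ⟨L, hL, h1⟩ := ρ.factorsThroughFiniteLevel
    refine ⟨L, hL, fun σ hσ => ?_⟩
    have h2 := h1 σ hσ
    refine Prod.ext (Units.ext ?_) (Units.ext ?_)
    · have h3 := hχ σ
      rw [h2, Module.End.one_apply] at h3
      have : ((χ σ : ℂ) - 1) • w = 0 := by rw [sub_smul, ← h3, one_smul, sub_self]
      rcases smul_eq_zero.1 this with h4 | h4
      · exact sub_eq_zero.1 h4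
      · exact absurd h4 hw0
    · change (δ σ : ℂ) = 1
      rw [hδ, h2, map_one]
  -- the finite group `H = r(GQ)`
  have hfinR : (Set.range r).Finite := finite_range_of_finiteLevel r hrfin
  let H : Subgroup (ℂˣ × ℂˣ) := r.range
  have : Finite H := hfinR.to_subtype
  have : Fintype H := Fintype.ofFinite H
  have hnorm : ∀ σ, ‖((r σ).1 : ℂ)‖ = 1 ∧ ‖((r σ).2 : ℂ)‖ = 1 := fun σ =>
    norm_eq_one_of_mem H ⟨r σ, σ, rfl⟩
  -- traces of Frobenius
  have hfrob : ∀ p : ℕ, p.Prime → ¬ p ∣ N → ∀ (A : ValuationSubring Qbar) (σ : GQ),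
      A.LiesOverPrime p → A.IsFrobeniusAt σ p → ‖t p‖ ^ 2 = phi (r σ) := by
    intro p hp hpN A σ hA hσ
    have hcp := (h p hp hpN).2 A hA σ hσ
    have hx0 : (χ σ : ℂ) ≠ 0 := (χ σ).ne_zero
    have hdet : (δ σ : ℂ) = d p := by
      rw [hδ, LinearMap.det_eq_sign_charpoly_coeff, ρ.finrank_eq, hcp]
      simp
    have hCH := LinearMap.aeval_self_charpoly (ρ.ρ σ)
    rw [hcp] at hCH
    have h2 := congrArg (fun f : Module.End ℂ ρ.V => f w) hCH
    simp only [map_add, map_sub, map_mul, aeval_X, aeval_C, LinearMap.add_apply,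
      LinearMap.sub_apply, Module.End.mul_apply, LinearMap.zero_apply, pow_two,
      Module.algebraMap_end_apply, hχ σ, map_smul, smul_smul] at h2
    rw [← sub_smul, ← add_smul] at h2
    have h3 : (χ σ : ℂ) * (χ σ : ℂ) - t p * (χ σ : ℂ) + d p = 0 := by
      rcases smul_eq_zero.1 h2 with h4 | h4
      · linear_combination h4
      · exact absurd h4 hw0
    have h4 : t p = (χ σ : ℂ) + (δ σ : ℂ) / (χ σ : ℂ) := by
      rw [hdet]
      field_simp
      linear_combination -h3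
    rw [h4]
    rfl
  let Cs : ℝ → Set (ℂˣ × ℂˣ) := fun c => {g | phi g = c}
  let s : Finset ℝ := Finset.univ.image (fun g : H => phi (g : ℂˣ × ℂˣ))
  let X : ℝ → Set ℕ := fun c => FrobSet r (Cs c) N.primeFactors
  let dd : ℝ → ℝ := fun c =>
    (Nat.card {x : Set.range r // (x : ℂˣ × ℂˣ) ∈ Cs c} : ℝ) / (Nat.card (Set.range r) : ℝ)
  have hXt : ∀ c, ∀ p ∈ X c, ¬ p ∣ N ∧ ‖t p‖ ^ 2 = c ∧ c ≤ 4 := by
    rintro c p ⟨hp, hpT, A, σ, hA, hσ, hc⟩
    have hpN : ¬ p ∣ N := fun hd => hpT (Nat.mem_primeFactors.2 ⟨hp, hd, hN⟩)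
    have hc' : phi (r σ) = c := hc
    exact ⟨hpN, by rw [hfrob p hp hpN A σ hA hσ, hc'], by
      rw [← hc']; exact phi_le_four (hnorm σ).1 (hnorm σ).2⟩
  have hmain := sum_le_of_lowerDens_of_weightedUpper s X dd (fun c => c)
    (fun p => if p ∣ N then 0 else min (‖t p‖ ^ 2) 4) 1
    (fun p => by
      split_ifs
      · exact le_rfl
      · exact le_min (by positivity) (by norm_num))
    (fun c hc => by
      obtain ⟨g, -, rfl⟩ := Finset.mem_image.1 hc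
      exact sq_nonneg _)
    (fun c _ c' _ hcc => Set.disjoint_left.2 fun p hp hp' =>
      hcc ((hXt c p hp).2.1.symm.trans (hXt c' p hp').2.1))
    (fun c _ => chebotarev r hrfin (Cs c)
      (fun σ τ hτ => by
        have : r (σ * τ * σ⁻¹) = r τ := by
          rw [map_mul, map_mul, map_inv, mul_comm (r σ), mul_inv_cancel_right]
        rw [this]; exact hτ)
      (fun τ hτ => by
        have hτ' : phi (r τ) = c := hτ
        change phi (r τ⁻¹) = c
        rw [map_inv, phi_inv (hnorm τ).1 (hnorm τ).2, hτ'])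
      N.primeFactors)
    (fun c _ p hp => by
      obtain ⟨h1, h2, h3⟩ := hXt c p hp
      rw [if_neg h1, h2, min_eq_left h3])
    hr
  -- evaluation of the sum
  have hcardH : (Nat.card (Set.range r) : ℝ) = Fintype.card H := by
    have : Nat.card (Set.range r) = Nat.card H := rfl
    rw [this, Nat.card_eq_fintype_card]
  have hcardC : ∀ c, (Nat.card {x : Set.range r // (x : ℂˣ × ℂˣ) ∈ Cs c} : ℝ)
      = ((Finset.univ.filter fun g : H => phi (g : ℂˣ × ℂˣ) = c).card : ℝ) := by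
    intro c
    have : Nat.card {x : Set.range r // (x : ℂˣ × ℂˣ) ∈ Cs c}
        = Nat.card {g : H // phi (g : ℂˣ × ℂˣ) = c} := rfl
    rw [this, Nat.card_eq_fintype_card, Fintype.card_subtype]
  have hsum : ∑ g : H, phi (g : ℂˣ × ℂˣ)
      = ∑ c ∈ s, ((Finset.univ.filter fun g : H => phi (g : ℂˣ × ℂˣ) = c).card : ℝ) * c := by
    have := Finset.sum_comp (s := (Finset.univ : Finset H)) (fun c : ℝ => c)
      (fun g : H => phi (g : ℂˣ × ℂˣ))
    simpa only [nsmul_eq_mul] using this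
  have hpos : (0 : ℝ) < Fintype.card H := by exact_mod_cast Fintype.card_pos
  have h2 := two_mul_card_le_sum H
  have h3 : ∑ c ∈ s, c * dd c = (∑ g : H, phi (g : ℂˣ × ℂˣ)) / Fintype.card H := by
    rw [hsum, Finset.sum_div]
    refine Finset.sum_congr rfl fun c _ => ?_
    simp only [dd, hcardH, hcardC]
    ring
  rw [h3, div_le_one hpos] at hmain
  linarith

/-- monotonicity of `WeightedUpper` in the weight. -/
theorem WeightedUpper.mono {w w' : ℕ → ℝ} {c : ℝ} (hw : WeightedUpper w c)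
    (h : ∀ p, w' p ≤ w p) : WeightedUpper w' c := by
  obtain ⟨C, hC⟩ := hw
  refine ⟨C, fun s hs hs2 S hS => le_trans ?_ (hC s hs hs2 S hS)⟩
  exact Finset.sum_le_sum fun p _ => mul_le_mul_of_nonneg_right (h p) (by positivity)

theorem isIrreducible_of_rankin (N : ℕ) (hN : N ≠ 0) (t d : ℕ → ℂ) (ρ : ResidualGaloisRep ℂ)
    (h : Attached ρ N t d) (hr : WeightedUpper (fun p => ‖t p‖ ^ 2) 1) : ρ.IsIrreducible := by
  refine isIrreducible_of_rankin_min N hN t d ρ h (hr.mono fun p => ?_)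
  split_ifs
  · positivity
  · exact min_le_left _ _

end Fermat.Agent.S48
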