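import Fermat.Agent.S48.Core.Small
import Fermat.Agent.S48.Core.Mat
import Fermat.Agent.GAL.PC.PseudoRep

/-! # S48 core (K7): from `ρ̄` with eigenvalues in `μ_m` to a complex representation

Brauer lift: `t σ = α + β`, `c σ = α β` with `α, β ∈ μ_m(OO)` the lifts of the eigenvalues of
`ρ̄ σ` (`Good.exists_lift`; unique because `φ` is good).  `c` is a homomorphism, `t 1 = 2`,
`t (σ τ) = t (τ σ)` and `t σ * t τ = t (σ τ) + c τ * t (σ τ⁻¹)` hold because they hold after `φ`
(identities for `2 × 2` matrices) and both sides are sums of 4 elements of `μ_m`.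
Then `GAL.PC.exists_rep` (`Fermat/Agent/GAL/PC/PseudoRep.lean`); the formula
`ρ g i j = tl t (of g * z i j)` shows `ρ κ = 1` when `ρ̄ κ = 1`.
(Degenerate case `2 = 0` in `k`: goodness forces `μ_m(OO) = 1`; take the trivial representation.) -/

set_option autoImplicit false

namespace Fermat.Agent.S48

open Polynomial

local notation "Qbar" => AlgebraicClosure ℚ
local notation "GQ" => (AlgebraicClosure ℚ ≃ₐ[ℚ] AlgebraicClosure ℚ)

namespace LiftAux

variable {m : ℕ} {k : Type} [Field k] {φ : OO →+* k}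

lemma eq4 (h : Good m φ) {a₁ a₂ a₃ a₄ b₁ b₂ b₃ b₄ : OO}
    (ha₁ : a₁ ^ m = 1) (ha₂ : a₂ ^ m = 1) (ha₃ : a₃ ^ m = 1) (ha₄ : a₄ ^ m = 1)
    (hb₁ : b₁ ^ m = 1) (hb₂ : b₂ ^ m = 1) (hb₃ : b₃ ^ m = 1) (hb₄ : b₄ ^ m = 1)
    (he : φ a₁ + φ a₂ + φ a₃ + φ a₄ = φ b₁ + φ b₂ + φ b₃ + φ b₄) :
    a₁ + a₂ + a₃ + a₄ = b₁ + b₂ + b₃ + b₄ := by
  have hx : (a₁ + a₂ + a₃ + a₄) - (b₁ + b₂ + b₃ + b₄) ∈ smallSet m := by
    refine ⟨![a₁, a₂, a₃, a₄], ![b₁, b₂, b₃, b₄], ?_, ?_, ?_⟩
    · intro i; fin_cases i <;> simpa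
    · intro i; fin_cases i <;> simpa
    · simp [Fin.sum_univ_four]
  have := h _ hx (by simp only [map_sub, map_add]; rw [he, sub_self])
  exact sub_eq_zero.1 this

lemma eq2 (h : Good m φ) {a₁ a₂ b₁ b₂ : OO}
    (ha₁ : a₁ ^ m = 1) (ha₂ : a₂ ^ m = 1) (hb₁ : b₁ ^ m = 1) (hb₂ : b₂ ^ m = 1)
    (he : φ a₁ + φ a₂ = φ b₁ + φ b₂) : a₁ + a₂ = b₁ + b₂ := by
  have := eq4 h ha₁ ha₂ (one_pow m) (one_pow m) hb₁ hb₂ (one_pow m) (one_pow m) (by rw [he])
  simpa using this

lemma eq1 (h : Good m φ) {a b : OO} (ha : a ^ m = 1) (hb : b ^ m = 1) (he : φ a = φ b) :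
    a = b := by
  have := eq2 h ha (one_pow m) hb (one_pow m) (by rw [he])
  simpa using this

/-- the basic identity for `2 × 2` matrices -/
lemma trace_mul_trace {K : Type*} [Field K] (A B B' : Matrix (Fin 2) (Fin 2) K) (h : B * B' = 1) :
    A.trace * B.trace = (A * B).trace + B.det * (A * B').trace := by
  have h1 : B.det • B' = B.adjugate := by
    calc B.det • B' = (B.adjugate * B) * B' := by rw [Matrix.adjugate_mul, Matrix.smul_mul, one_mul]
      _ = B.adjugate := by rw [mul_assoc, h, mul_one]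
  have h2 : B.det * (A * B').trace = (A * B.adjugate).trace := by
    rw [← h1, Matrix.mul_smul, Matrix.trace_smul, smul_eq_mul]
  rw [h2, Matrix.adjugate_fin_two]
  simp only [Matrix.trace_fin_two, Matrix.mul_apply, Fin.sum_univ_two, Matrix.of_apply,
    Matrix.cons_val', Matrix.cons_val_zero, Matrix.cons_val_one, Matrix.cons_val_fin_one]
  ring

/-- a monic quadratic over an algebraically closed field -/
lemma exists_roots [IsAlgClosed k] (t d : k) :
    ∃ x y : k, x + y = t ∧ x * y = d := by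
  obtain ⟨x, hx⟩ := IsAlgClosed.exists_root (X ^ 2 - C t * X + C d : k[X]) (by
    have : (X ^ 2 - C t * X + C d : k[X]).degree = 2 := by
      compute_degree!
    rw [this]; norm_num)
  refine ⟨x, t - x, by ring, ?_⟩
  simp only [IsRoot.def, eval_add, eval_sub, eval_pow, eval_X, eval_mul, eval_C] at hx
  linear_combination -hx

lemma quad_eq {K : Type*} [Field K] (x y : K) :
    (X ^ 2 - C (x + y) * X + C (x * y) : K[X]) = (X - C x) * (X - C y) := by
  simp only [C_add, C_mul]; ring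

open Fermat.Agent.GAL.PC in
lemma tl_of_mul {K : Type*} [Field K] {G : Type*} [Group G] {t : G → K} {κ : G}
    (h : ∀ g, t (κ * g) = t g) (x : MonoidAlgebra K G) :
    tl t (MonoidAlgebra.of K G κ * x) = tl t x := by
  induction x using MonoidAlgebra.induction_on with
  | of g => rw [← map_mul, tl_of, tl_of, h]
  | add y₁ y₂ h₁ h₂ => rw [mul_add, map_add, map_add, h₁, h₂]
  | smul r y hy => rw [mul_smul_comm, map_smul, map_smul, hy]

end LiftAux

open LiftAux Fermat.Agent.GAL.PC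

theorem exists_complex_rep (m : ℕ) (hm : m ≠ 0) {k : Type} [Field k] [IsAlgClosed k]
    (φ : OO →+* k) (hφ : Good m φ) (ρb : ResidualGaloisRep k)
    (hexp : ∀ (σ : GQ) (α : k), (LinearMap.charpoly (ρb.ρ σ)).IsRoot α → α ^ m = 1)
    (c : GQ) (hc : c * c = 1) (hdet : LinearMap.det (ρb.ρ c) = -1) :
    ∃ ρ : ResidualGaloisRep ℂ, (∀ σ, ρb.ρ σ = 1 → ρ.ρ σ = 1) ∧
      ∀ σ, ∃ α β : OO, α ^ m = 1 ∧ β ^ m = 1 ∧
        LinearMap.charpoly (ρ.ρ σ) = (X - C (α : ℂ)) * (X - C (β : ℂ)) ∧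
        LinearMap.charpoly (ρb.ρ σ) = (X - C (φ α)) * (X - C (φ β)) := by
  obtain ⟨r, -, hrchar, hr1, -⟩ := exists_matrixRep ρb
  set R : GQ → Matrix (Fin 2) (Fin 2) k := fun σ => ((r σ : GL (Fin 2) k) : Matrix (Fin 2) (Fin 2) k)
    with hR
  have hRmul : ∀ σ τ, R (σ * τ) = R σ * R τ := fun σ τ => by
    simp only [hR, map_mul, Units.val_mul]
  have hRone : R 1 = 1 := by simp only [hR, map_one, Units.val_one]
  have hRchar : ∀ σ, LinearMap.charpoly (ρb.ρ σ) = X ^ 2 - C (R σ).trace * X + C (R σ).det :=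
    fun σ => by rw [← hrchar σ, Matrix.charpoly_fin_two]
  -- lifts of the eigenvalues
  have hex : ∀ σ, ∃ α β : OO, α ^ m = 1 ∧ β ^ m = 1 ∧ φ α + φ β = (R σ).trace ∧
      φ α * φ β = (R σ).det := by
    intro σ
    obtain ⟨x, y, hxy, hxy'⟩ := exists_roots (R σ).trace (R σ).det
    have hch : LinearMap.charpoly (ρb.ρ σ) = (X - C x) * (X - C y) := by
      rw [hRchar, ← hxy, ← hxy', quad_eq]
    have hx : x ^ m = 1 := hexp σ x (by rw [hch]; simp)
    have hy : y ^ m = 1 := hexp σ y (by rw [hch]; simp)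
    obtain ⟨α, hα, rfl⟩ := hφ.exists_lift hm x hx
    obtain ⟨β, hβ, rfl⟩ := hφ.exists_lift hm y hy
    exact ⟨α, β, hα, hβ, hxy, hxy'⟩
  choose α β hα hβ htr hdt using hex
  have hb : ∀ σ, LinearMap.charpoly (ρb.ρ σ) = (X - C (φ (α σ))) * (X - C (φ (β σ))) := fun σ => by
    rw [hRchar, ← htr, ← hdt, quad_eq]
  by_cases h2 : (2 : k) = 0
  · -- degenerate case: all roots of unity of order `m` are trivial
    have htriv : ∀ z : OO, z ^ m = 1 → z = 1 := by
      intro z hz
      have := eq2 hφ hz hz (one_pow m) (one_pow m) (by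
        rw [map_one, ← two_mul, ← two_mul, h2, zero_mul, zero_mul])
      have h3 : (2 : OO) * (z - 1) = 0 := by linear_combination this
      rcases mul_eq_zero.1 h3 with h4 | h4
      · exact absurd h4 two_ne_zero
      · exact sub_eq_zero.1 h4
    obtain ⟨ρ, hρchar, hρ1⟩ := exists_residual_of_matrix (k := ℂ) 1
      ⟨⊥, inferInstance, fun _ _ => rfl⟩
    refine ⟨ρ, fun σ _ => (hρ1 σ).2 rfl, fun σ => ⟨α σ, β σ, hα σ, hβ σ, ?_, hb σ⟩⟩
    rw [hρchar, htriv _ (hα σ), htriv _ (hβ σ), MonoidHom.one_apply, Matrix.charpoly_one]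
    simp [pow_two]
  · -- the pseudo-character
    have hmul : ∀ {a b : OO}, a ^ m = 1 → b ^ m = 1 → (a * b) ^ m = 1 := fun ha hb => by
      rw [mul_pow, ha, hb, one_mul]
    have hcmul : ∀ σ τ, α (σ * τ) * β (σ * τ) = (α σ * β σ) * (α τ * β τ) := by
      intro σ τ
      refine eq1 hφ (hmul (hα _) (hβ _)) (hmul (hmul (hα _) (hβ _)) (hmul (hα _) (hβ _))) ?_
      simp only [map_mul, hdt, hRmul, Matrix.det_mul]
    have hcone : α 1 * β 1 = 1 := by
      refine eq1 hφ (hmul (hα _) (hβ _)) (one_pow m) ?_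
      simp only [map_mul, hdt, hRone, Matrix.det_one, map_one]
    let cc : GQ →* ℂ :=
      { toFun := fun σ => ((α σ * β σ : OO) : ℂ)
        map_one' := by rw [hcone]; rfl
        map_mul' := fun σ τ => by rw [hcmul]; rfl }
    let t : GQ → ℂ := fun σ => ((α σ + β σ : OO) : ℂ)
    have hinv : ∀ τ : GQ, R τ * R τ⁻¹ = 1 := fun τ => by rw [← hRmul, mul_inv_cancel, hRone]
    have hps : IsPseudo t cc := by
      refine ⟨?_, ?_, ?_⟩
      · have : α 1 + β 1 = 1 + 1 := by
          refine eq2 hφ (hα _) (hβ _) (one_pow m) (one_pow m) ?_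
          rw [htr, hRone, Matrix.trace_one, map_one]
          simp [one_add_one_eq_two]
        show ((α 1 + β 1 : OO) : ℂ) = 2
        rw [this]; push_cast; norm_num
      · intro σ τ
        have : α σ * α τ + α σ * β τ + β σ * α τ + β σ * β τ =
            α (σ * τ) + β (σ * τ) + (α τ * β τ) * α (σ * τ⁻¹) + (α τ * β τ) * β (σ * τ⁻¹) := by
          refine eq4 hφ (hmul (hα _) (hα _)) (hmul (hα _) (hβ _)) (hmul (hβ _) (hα _))
            (hmul (hβ _) (hβ _)) (hα _) (hβ _) (hmul (hmul (hα _) (hβ _)) (hα _))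
            (hmul (hmul (hα _) (hβ _)) (hβ _)) ?_
          have key := trace_mul_trace (R σ) (R τ) (R τ⁻¹) (hinv τ)
          rw [← hRmul, ← hRmul, ← htr, ← htr, ← htr, ← htr, ← hdt] at key
          simp only [map_mul]
          linear_combination key
        have h' := congrArg (fun z : OO => (z : ℂ)) this
        show ((α σ + β σ : OO) : ℂ) * ((α τ + β τ : OO) : ℂ) =
          ((α (σ * τ) + β (σ * τ) : OO) : ℂ) +
            ((α τ * β τ : OO) : ℂ) * ((α (σ * τ⁻¹) + β (σ * τ⁻¹) : OO) : ℂ)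
        push_cast at h' ⊢
        linear_combination h'
      · intro σ τ
        have : α (σ * τ) + β (σ * τ) = α (τ * σ) + β (τ * σ) := by
          refine eq2 hφ (hα _) (hβ _) (hα _) (hβ _) ?_
          rw [htr, htr, hRmul, hRmul, Matrix.trace_mul_comm]
        show ((α (σ * τ) + β (σ * τ) : OO) : ℂ) = ((α (τ * σ) + β (τ * σ) : OO) : ℂ)
        rw [this]
    -- `m` is even
    have hdetc : (R c).det = -1 := by
      have h1 := hRchar c
      have h2' := LinearMap.det_eq_sign_charpoly_coeff (ρb.ρ c)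
      rw [hdet, h1, ρb.finrank_eq] at h2'
      have : (X ^ 2 - C (R c).trace * X + C (R c).det : k[X]).coeff 0 = (R c).det := by
        simp
      rw [this] at h2'
      simpa using h2'.symm
    have hneg : ((-1 : OO)) ^ m = 1 := by
      rcases Nat.even_or_odd m with he | ho
      · exact he.neg_one_pow
      · exfalso
        have h1 : ((R c).det) ^ m = 1 := by
          rw [← hdt, ← map_mul, ← map_pow, hmul (hα _) (hβ _), map_one]
        rw [hdetc, ho.neg_one_pow] at h1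
        apply h2
        linear_combination -h1
    have hcc : cc c = -1 := by
      have : α c * β c = -1 := by
        refine eq1 hφ (hmul (hα _) (hβ _)) hneg ?_
        rw [map_mul, hdt, hdetc, map_neg, map_one]
      show ((α c * β c : OO) : ℂ) = -1
      rw [this]; norm_num
    obtain ⟨ρM, z, hρtr, hρdet, hρz⟩ := exists_rep hps (two_ne_zero) hc hcc
    have hker : ∀ κ : GQ, ρb.ρ κ = 1 → ρM κ = 1 := by
      intro κ hκ
      have hRκ : R κ = 1 := by
        have := (hr1 κ).2 hκ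
        simp only [hR, this, Units.val_one]
      have ht : ∀ g, t (κ * g) = t g := by
        intro g
        have : α (κ * g) + β (κ * g) = α g + β g := by
          refine eq2 hφ (hα _) (hβ _) (hα _) (hβ _) ?_
          rw [htr, htr, hRmul, hRκ, one_mul]
        show ((α (κ * g) + β (κ * g) : OO) : ℂ) = ((α g + β g : OO) : ℂ)
        rw [this]
      ext i j
      have h1 := hρz κ i j
      have h2' := hρz 1 i j
      rw [tl_of_mul ht] at h1
      rw [map_one (MonoidAlgebra.of ℂ GQ), one_mul, map_one ρM] at h2'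
      rw [h1, ← h2']
    have hfin : GaloisFactorsThroughFiniteLevel ρM := by
      obtain ⟨L, hL, h1⟩ := ρb.factorsThroughFiniteLevel
      exact ⟨L, hL, fun σ hσ => hker σ (h1 σ hσ)⟩
    obtain ⟨ρ, hρchar, hρ1⟩ := exists_residual_of_matrix ρM hfin
    refine ⟨ρ, fun σ hσ => (hρ1 σ).2 (hker σ hσ), fun σ => ⟨α σ, β σ, hα σ, hβ σ, ?_, hb σ⟩⟩
    rw [hρchar, Matrix.charpoly_fin_two, hρtr, hρdet, ← quad_eq]
    show X ^ 2 - C ((α σ + β σ : OO) : ℂ) * X + C ((α σ * β σ : OO) : ℂ) = _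
    push_cast
    rfl

end Fermat.Agent.S48
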