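import Fermat.Agent.S48.Defs
import Fermat.Agent.Cheb.Toolkit
import Fermat.Agent.GAL.PC.CycloPow

/-! # S48 core (K6): the determinant at complex conjugation

`det ρ` and `φ ∘ χ ∘ cycloChar N` are two characters of finite level which agree at the Frobenius
lifts outside `M`: equal by `Cheb.frobenius_induction`.  `c` = `GAL.PC.complexConjugation`
(`cycloChar_complexConjugation`). -/

set_option autoImplicit false

namespace Fermat.Agent.S48

open Polynomial

local notation "Qbar" => AlgebraicClosure ℚ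
local notation "GQ" => (AlgebraicClosure ℚ ≃ₐ[ℚ] AlgebraicClosure ℚ)

/-- the determinant read off from the characteristic polynomial (dimension 2) -/
theorem det_eq_of_charpoly {k : Type} [Field k] (ρ : ResidualGaloisRep k) (σ : GQ) {t d : k}
    (h : LinearMap.charpoly (ρ.ρ σ) = X ^ 2 - C t * X + C d) : LinearMap.det (ρ.ρ σ) = d := by
  rw [LinearMap.det_eq_sign_charpoly_coeff, ρ.finrank_eq, h]
  simp [coeff_X_pow, coeff_X]

/-- two elements of `GQ` agreeing on a field of definition have the same image -/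
theorem map_eq_of_agree {M : Type} [Monoid M] (r : GQ →* M) (L : IntermediateField ℚ Qbar)
    (hL : ∀ σ : GQ, (∀ x ∈ L, σ x = x) → r σ = 1) {σ σ' : GQ} (h : ∀ x ∈ L, σ' x = σ x) :
    r σ' = r σ := by
  have h1 : r (σ⁻¹ * σ') = 1 := hL _ (fun x hx => by
    rw [AlgEquiv.mul_apply, h x hx]
    exact σ.symm_apply_apply x)
  have h2 : σ' = σ * (σ⁻¹ * σ') := by group
  rw [h2, map_mul, h1, mul_one]

theorem exists_involution (N : ℕ) [NeZero N] (χ : DirichletCharacter ℂ N) (hχ : χ (-1) = -1)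
    (e : ℕ → OO) (he : ∀ p : ℕ, (e p : ℂ) = χ (p : ZMod N)) :
    ∃ c : GQ, c * c = 1 ∧ ∀ (k : Type) [Field k] (φ : OO →+* k) (ρ : ResidualGaloisRep k)
      (M : ℕ) (t : ℕ → k), M ≠ 0 → N ∣ M → Attached ρ M t (fun p => φ (e p)) →
      LinearMap.det (ρ.ρ c) = -1 := by
  obtain ⟨c, hcc, hc⟩ := GAL.PC.exists_complexConj
  refine ⟨c, hcc, ?_⟩
  intro k _ φ ρ M t hM hNM hatt
  let eZ : ZMod N → OO := fun u => e u.val
  have heZ : ∀ u : ZMod N, (eZ u : ℂ) = χ u := fun u => by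
    show (e u.val : ℂ) = χ u
    rw [he, ZMod.natCast_zmod_val]
  have heZ_mul : ∀ u v : ZMod N, eZ (u * v) = eZ u * eZ v := fun u v => by
    apply Subtype.ext
    push_cast
    rw [heZ, heZ, heZ, map_mul]
  have heZ_one : eZ 1 = 1 := by
    apply Subtype.ext
    push_cast
    rw [heZ, map_one]
  have heZ_pow : ∀ (u : ZMod N) (a : ℕ), eZ (u ^ a) = eZ u ^ a := by
    intro u a
    induction a with
    | zero => rw [pow_zero, pow_zero, heZ_one]
    | succ a ih => rw [pow_succ, pow_succ, heZ_mul, ih]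
  have key : ∀ σ : GQ, LinearMap.det (ρ.ρ σ) = φ (eZ (GAL.cycloChar N σ : ZMod N)) := by
    refine Cheb.frobenius_induction M.primeFactors _ ?_ ?_ ?_
    · intro σ h
      obtain ⟨L₁, hL₁f, hL₁⟩ := ρ.factorsThroughFiniteLevel
      obtain ⟨L₂, hL₂f, hL₂⟩ := GAL.cycloChar_finiteLevel N
      obtain ⟨σ', hσ', hP⟩ := h (L₁ ⊔ L₂) (IntermediateField.finiteDimensional_sup L₁ L₂)
      have h1 : ρ.ρ σ' = ρ.ρ σ :=
        map_eq_of_agree ρ.ρ L₁ hL₁ (fun x hx => hσ' x ((le_sup_left : L₁ ≤ L₁ ⊔ L₂) hx))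
      have h2 : GAL.cycloChar N σ' = GAL.cycloChar N σ :=
        map_eq_of_agree (GAL.cycloChar N) L₂ hL₂
          (fun x hx => hσ' x ((le_sup_right : L₂ ≤ L₁ ⊔ L₂) hx))
      rw [← h1, ← h2]
      exact hP
    · intro τ a hτ
      rw [map_pow, map_pow, hτ, map_pow, Units.val_pow_eq_pow_val, heZ_pow, map_pow]
    · intro ℓ hℓ hℓT A hA τ hτ
      have hℓM : ¬ ℓ ∣ M := fun h => hℓT (Nat.mem_primeFactors.2 ⟨hℓ, h, hM⟩)
      have hcop : Nat.Coprime ℓ N :=
        (Nat.Prime.coprime_iff_not_dvd hℓ).2 (fun h => hℓM (h.trans hNM))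
      rw [det_eq_of_charpoly ρ τ ((hatt ℓ hℓ hℓM).2 A hA τ hτ),
        GAL.PC.cycloChar_of_isFrobeniusAt' N hℓ hcop hA hτ]
      have h3 : e ℓ = eZ (ℓ : ZMod N) := by
        apply Subtype.ext
        rw [heZ, he]
      show φ (e ℓ) = _
      rw [h3]
  rw [key c, hc N]
  have h1 : eZ (-1) = -1 := by
    apply Subtype.ext
    push_cast
    rw [heZ, hχ]
  rw [h1, map_neg, map_one]

end Fermat.Agent.S48
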