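import Fermat.Agent.S48.Core.Small
import Fermat.Agent.S54.Frobenius

/-! # S48 core (K5): `X² - a_p X + e_p` has roots of unity of order `m` as roots (pigeonhole on ℓ)

Fix `p ∤ N` and a Frobenius lift (S54 `exists_isFrobeniusAt`).  For every prime `ℓ ≥ ℓ₀`, `ℓ ≠ p`,
good for `m`, take `k, φ` (`exists_reduction`), `ρ` (`hmodl`): the two roots of the characteristic
polynomial lift to `α, β ∈ μ_m(OO)` with `φ (a p - α - β) = 0`, `φ (e p - α β) = 0`.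
Finitely many `(α, β)`, infinitely many `ℓ`; conclude by `exists_bound_of_ne_zero`. -/

set_option autoImplicit false

namespace Fermat.Agent.S48

open Polynomial

local notation "Qbar" => AlgebraicClosure ℚ
local notation "GQ" => (AlgebraicClosure ℚ ≃ₐ[ℚ] AlgebraicClosure ℚ)

theorem exists_roots_of_unity (N : ℕ) (a e : ℕ → OO) (m ℓ₀ : ℕ) (hm : m ≠ 0)
    (hexp : ∀ ℓ : ℕ, ℓ.Prime → ℓ₀ ≤ ℓ →
      ∀ (k : Type) [Field k] [IsAlgClosed k] (φ : OO →+* k), (ℓ : k) = 0 →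
      ∀ ρ : ResidualGaloisRep k, Attached ρ (N * ℓ) (fun p => φ (a p)) (fun p => φ (e p)) →
      ∀ (σ : GQ) (α : k), (LinearMap.charpoly (ρ.ρ σ)).IsRoot α → α ^ m = 1)
    (hmodl : ∀ ℓ : ℕ, ℓ.Prime → ℓ₀ ≤ ℓ → HasModL N a e ℓ)
    (p : ℕ) (hp : p.Prime) (hpN : ¬ p ∣ N) :
    ∃ α β : OO, α ^ m = 1 ∧ β ^ m = 1 ∧ a p = α + β ∧ e p = α * β := by
  classical
  by_contra hcon
  -- a bound for every pair
  have hpair : ∀ α β : OO, ∃ B : ℕ, α ^ m = 1 → β ^ m = 1 →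
      ∀ ℓ : ℕ, ℓ.Prime → B ≤ ℓ → ∀ (k : Type) [Field k] (φ : OO →+* k), (ℓ : k) = 0 →
        ¬ (φ (a p) = φ α + φ β ∧ φ (e p) = φ α * φ β) := by
    intro α β
    by_cases h1 : a p - (α + β) = 0
    · by_cases h2 : e p - α * β = 0
      · refine ⟨0, fun hα hβ => ?_⟩
        exact absurd ⟨α, β, hα, hβ, sub_eq_zero.1 h1, sub_eq_zero.1 h2⟩ hcon
      · obtain ⟨B, hB⟩ := exists_bound_of_ne_zero _ h2
        refine ⟨B, fun _ _ ℓ hℓ hBℓ k _ φ hφ h => hB ℓ hℓ hBℓ k φ hφ ?_⟩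
        rw [map_sub, map_mul, h.2, sub_self]
    · obtain ⟨B, hB⟩ := exists_bound_of_ne_zero _ h1
      refine ⟨B, fun _ _ ℓ hℓ hBℓ k _ φ hφ h => hB ℓ hℓ hBℓ k φ hφ ?_⟩
      rw [map_sub, map_add, h.1, sub_self]
  choose B hB using hpair
  obtain ⟨ℓ₁, hgood⟩ := eventually_good m hm
  set S : Finset OO := nthRootsFinset m (1 : OO) with hS
  set B₀ : ℕ := (S ×ˢ S).sup fun q => B q.1 q.2 with hB₀
  obtain ⟨ℓ, hℓge, hℓ⟩ := Nat.exists_infinite_primes (ℓ₀ + ℓ₁ + B₀ + p + 1)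
  obtain ⟨k, _, _, φ, hφ⟩ := exists_reduction ℓ hℓ
  obtain ⟨ρ, hρ⟩ := hmodl ℓ hℓ (by omega) k φ hφ
  obtain ⟨A, σ, hA, hσ⟩ := Fermat.Agent.S54.exists_isFrobeniusAt hp
  have hpNℓ : ¬ p ∣ N * ℓ := by
    intro h
    rcases (Nat.Prime.dvd_mul hp).1 h with h | h
    · exact hpN h
    · have := (Nat.prime_dvd_prime_iff_eq hp hℓ).1 h
      omega
  have hchar := (hρ p hp hpNℓ).2 A hA σ hσ
  simp only at hchar
  have hdeg : (LinearMap.charpoly (ρ.ρ σ)).degree ≠ 0 := by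
    rw [hchar]
    have : (X ^ 2 - C (φ (a p)) * X + C (φ (e p)) : k[X]).degree = 2 := by
      compute_degree!
    rw [this]
    norm_num
  obtain ⟨α', hα'⟩ := IsAlgClosed.exists_root _ hdeg
  have hα'' : α' ^ 2 - φ (a p) * α' + φ (e p) = 0 := by
    have := hα'
    rw [hchar, IsRoot.def] at this
    simpa using this
  have hβ' : (LinearMap.charpoly (ρ.ρ σ)).IsRoot (φ (a p) - α') := by
    rw [hchar, IsRoot.def]
    simp only [eval_add, eval_sub, eval_pow, eval_X, eval_mul, eval_C]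
    linear_combination hα''
  have h1 := hexp ℓ hℓ (by omega) k φ hφ ρ hρ σ α' hα'
  have h2 := hexp ℓ hℓ (by omega) k φ hφ ρ hρ σ _ hβ'
  have hg := hgood ℓ hℓ (by omega) k φ hφ
  obtain ⟨α, hα, hαφ⟩ := hg.exists_lift hm α' h1
  obtain ⟨β, hβ, hβφ⟩ := hg.exists_lift hm _ h2
  have hmem : (α, β) ∈ S ×ˢ S := by
    rw [Finset.mem_product]
    exact ⟨(mem_nthRootsFinset (Nat.pos_of_ne_zero hm) 1).2 hα,
      (mem_nthRootsFinset (Nat.pos_of_ne_zero hm) 1).2 hβ⟩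
  have hle : B α β ≤ B₀ := Finset.le_sup (f := fun q : OO × OO => B q.1 q.2) hmem
  refine hB α β hα hβ ℓ hℓ (by omega) k φ hφ ⟨?_, ?_⟩
  · rw [hαφ, hβφ]; ring
  · rw [hαφ, hβφ]; linear_combination hα''

end Fermat.Agent.S48
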