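import Fermat.Agent.S48.Core.Exponent
import Fermat.Agent.S48.Core.RootsOfUnity
import Fermat.Agent.S48.Core.Odd
import Fermat.Agent.S48.Core.Lift
import Fermat.Agent.S48.Core.Glue
import Fermat.Agent.S48.Core.Irred

/-! # S48 core: the abstract Deligne–Serre theorem (no modular forms) -/

set_option autoImplicit false

namespace Fermat.Agent.S48

open CongruenceSubgroup Polynomial
open scoped MatrixGroups

local notation "Qbar" => AlgebraicClosure ℚ
local notation "GQ" => (AlgebraicClosure ℚ ≃ₐ[ℚ] AlgebraicClosure ℚ)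

/-- values of a Dirichlet character are `0` or roots of unity of order dividing `φ(N)`. -/
theorem dirichlet_pow_totient (N : ℕ) [NeZero N] (χ : DirichletCharacter ℂ N) (u : ZMod N) :
    χ u ^ N.totient = 1 ∨ χ u = 0 := by
  by_cases hu : IsUnit u
  · left
    obtain ⟨v, rfl⟩ := hu
    rw [← map_pow, ← Units.val_pow_eq_pow_val, ← ZMod.card_units_eq_totient, pow_card_eq_one,
      Units.val_one, map_one]
  · right
    exact χ.map_nonunit hu

/-- comparison of a split quadratic with `X² - tX + d`. -/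
theorem split_quad_eq {K : Type*} [Field K] {x y t d : K}
    (h : (X - C x) * (X - C y) = X ^ 2 - C t * X + C d) : x + y = t ∧ x * y = d := by
  have e : (X - C x) * (X - C y) = X ^ 2 - C (x + y) * X + C (x * y) := by
    rw [C_add, C_mul]; ring
  rw [e] at h
  exact quad_inj h

/-- **Abstract Deligne–Serre.**
Proof: `n := φ(N)`-th powers of `e p` are `1` or `e p = 0`; `exists_exponent` gives `m, ℓ₀`;
`exists_roots_of_unity` for all `p ∤ N`; `eventually_good m`; choose two primes `ℓ ≠ ℓ'` larger than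
all bounds (and `> 2`), `exists_reduction`, `hmodl`, `exists_involution`, `exists_complex_rep`:
`ρ_ℓ`, `ρ_ℓ'` complex with `Attached ρ_ℓ (N ℓ) a e` (compare `α + β` with `a p = α' + β'` in
`smallSet m` using `Good`); `attached_of_two`; `isIrreducible_of_rankin_min` (helper71, K9). -/
theorem core (N : ℕ) [NeZero N] (χ : DirichletCharacter ℂ N) (hχ : χ (-1) = -1)
    (a e : ℕ → OO) (he : ∀ p : ℕ, (e p : ℂ) = χ (p : ZMod N))
    (hfin : ∀ η : ℝ, 0 < η → ∃ Y : Finset OO, UpperDens {p | a p ∉ Y} η)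
    (hrankin : WeightedUpper (fun p => if p ∣ N then 0 else min (‖(a p : ℂ)‖ ^ 2) 4) 1)
    (hmodl : ∃ ℓ₀ : ℕ, ∀ ℓ : ℕ, ℓ.Prime → ℓ₀ ≤ ℓ → HasModL N a e ℓ) :
    ∃ ρ : ResidualGaloisRep ℂ, ρ.IsIrreducible ∧
      Attached ρ N (fun p => (a p : ℂ)) (fun p => (e p : ℂ)) := by
  have hN : N ≠ 0 := NeZero.ne N
  have hn : N.totient ≠ 0 := (Nat.totient_pos.2 (Nat.pos_of_ne_zero hN)).ne'
  have he' : ∀ p, e p ^ N.totient = 1 ∨ e p = 0 := by
    intro p
    rcases dirichlet_pow_totient N χ (p : ZMod N) with h | h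
    · left
      apply Subtype.ext
      push_cast
      rw [he, h]
    · right
      apply Subtype.ext
      push_cast
      rw [he, h]
  obtain ⟨m, ℓ₀, hm, hexp⟩ := exists_exponent N hN a e N.totient hn he' hfin
  obtain ⟨ℓ₁, hmodl'⟩ := hmodl
  obtain ⟨ℓ₂, hgood⟩ := eventually_good m hm
  obtain ⟨c, hcc, hc⟩ := exists_involution N χ hχ e he
  have hroots : ∀ p : ℕ, p.Prime → ¬ p ∣ N →
      ∃ α β : OO, α ^ m = 1 ∧ β ^ m = 1 ∧ a p = α + β ∧ e p = α * β := fun p hp hpN =>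
    exists_roots_of_unity N a e m (ℓ₀ + ℓ₁) hm
      (fun ℓ hℓ hle => hexp ℓ hℓ (by omega)) (fun ℓ hℓ hle => hmodl' ℓ hℓ (by omega)) p hp hpN
  -- the complex representation attached to a large prime
  have hrep : ∀ ℓ : ℕ, ℓ.Prime → ℓ₀ + ℓ₁ + ℓ₂ ≤ ℓ → ∃ ρ : ResidualGaloisRep ℂ,
      Attached ρ (N * ℓ) (fun p => (a p : ℂ)) (fun p => (e p : ℂ)) := by
    intro ℓ hℓ hle
    obtain ⟨k, _, _, φ, hφ⟩ := exists_reduction ℓ hℓ
    obtain ⟨ρb, hρb⟩ := hmodl' ℓ hℓ (by omega) k φ hφ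
    have hg : Good m φ := hgood ℓ hℓ (by omega) k φ hφ
    have hdet : LinearMap.det (ρb.ρ c) = -1 :=
      hc k φ ρb (N * ℓ) (fun p => φ (a p)) (mul_ne_zero hN hℓ.ne_zero) (Dvd.intro _ rfl) hρb
    obtain ⟨ρ, hρ1, hρ2⟩ := exists_complex_rep m hm φ hg ρb
      (hexp ℓ hℓ (by omega) k φ hφ ρb hρb) c hcc hdet
    refine ⟨ρ, fun p hp hpNℓ => ⟨fun A hA σ hσ => hρ1 σ ((hρb p hp hpNℓ).1 A hA σ hσ), ?_⟩⟩
    intro A hA σ hσ
    have hpN : ¬ p ∣ N := fun h => hpNℓ (Dvd.dvd.mul_right h _)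
    obtain ⟨α', β', hα', hβ', hap, hep⟩ := hroots p hp hpN
    obtain ⟨α, β, hα, hβ, hch, hchb⟩ := hρ2 σ
    have hb := (hρb p hp hpNℓ).2 A hA σ hσ
    rw [hchb] at hb
    beta_reduce at hb
    obtain ⟨h1, h2⟩ := split_quad_eq hb
    have e1 : α + β = α' + β' := LiftAux.eq2 hg hα hβ hα' hβ' (by
      rw [h1, hap, map_add])
    have e2 : α * β = α' * β' := LiftAux.eq1 hg (by rw [mul_pow, hα, hβ, one_mul])
      (by rw [mul_pow, hα', hβ', one_mul]) (by rw [map_mul, h2, hep])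
    beta_reduce
    rw [hch, hap, hep, ← e1, ← e2]
    push_cast
    rw [C_add, C_mul]
    ring
  obtain ⟨ℓ, hℓle, hℓ⟩ := Nat.exists_infinite_primes (ℓ₀ + ℓ₁ + ℓ₂)
  obtain ⟨ℓ', hℓ'le, hℓ'⟩ := Nat.exists_infinite_primes (ℓ + 1)
  obtain ⟨ρ, hρ⟩ := hrep ℓ hℓ hℓle
  obtain ⟨ρ', hρ'⟩ := hrep ℓ' hℓ' (by omega)
  have hatt := attached_of_two N ℓ ℓ' hN hℓ hℓ' (by omega) _ _ ρ ρ' hρ hρ'
  exact ⟨ρ, isIrreducible_of_rankin_min N hN _ _ ρ hatt hrankin, hatt⟩

end Fermat.Agent.S48
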