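import Fermat.Agent.S48.Defs

/-! # S48 core (K1): reduction maps `OO → k` and small algebraic integers -/

set_option autoImplicit false
set_option linter.style.haveILetI false
set_option linter.unusedVariables false

namespace Fermat.Agent.S48

open Polynomial

local notation "Qbar" => AlgebraicClosure ℚ
local notation "GQ" => (AlgebraicClosure ℚ ≃ₐ[ℚ] AlgebraicClosure ℚ)

/-- Differences of two sums of four `m`-th roots of unity. -/
def smallSet (m : ℕ) : Set OO :=
  {x | ∃ u v : Fin 4 → OO, (∀ i, u i ^ m = 1) ∧ (∀ i, v i ^ m = 1) ∧ x = ∑ i, u i - ∑ i, v i}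

/-- `φ` is injective "on relations between at most 8 roots of unity of order `m`". -/
def Good (m : ℕ) {k : Type} [Field k] (φ : OO →+* k) : Prop :=
  ∀ x ∈ smallSet m, φ x = 0 → x = 0

theorem finite_rootsOfUnity_OO (m : ℕ) (hm : m ≠ 0) : {z : OO | z ^ m = 1}.Finite := by
  refine (nthRootsFinset m (1 : OO)).finite_toSet.subset ?_
  intro z hz
  exact (mem_nthRootsFinset (Nat.pos_of_ne_zero hm) 1).2 hz

theorem finite_smallSet (m : ℕ) (hm : m ≠ 0) : (smallSet m).Finite := by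
  have hR := finite_rootsOfUnity_OO m hm
  have hP : (Set.pi Set.univ fun _ : Fin 4 => {z : OO | z ^ m = 1}).Finite := Set.Finite.pi fun _ => hR
  refine ((hP.prod hP).image fun uv : (Fin 4 → OO) × (Fin 4 → OO) =>
    ∑ i, uv.1 i - ∑ i, uv.2 i).subset ?_
  rintro x ⟨u, v, hu, hv, rfl⟩
  exact ⟨(u, v), ⟨fun i _ => hu i, fun i _ => hv i⟩, rfl⟩

theorem exists_mul_eq_intCast_aux (x : OO) (hx : x ≠ 0) : ∀ (d : ℕ) (P : ℤ[X]), P.natDegree ≤ d →
    P ≠ 0 → aeval x P = 0 → ∃ (y : OO) (n : ℤ), n ≠ 0 ∧ x * y = n := by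
  intro d
  induction d with
  | zero =>
    intro P hd hP h1
    exfalso
    rw [Polynomial.eq_C_of_natDegree_le_zero hd] at h1 hP
    rw [aeval_C] at h1
    have h2 : ((P.coeff 0 : ℤ) : OO) = 0 := h1
    rw [Int.cast_eq_zero] at h2
    rw [h2, C_0] at hP
    exact hP rfl
  | succ d ih =>
    intro P hd hP h1
    by_cases h0 : P.coeff 0 = 0
    · have hP' : P = P.divX * X := by
        conv_lhs => rw [← Polynomial.divX_mul_X_add P, h0, C_0, add_zero]
      have hne : P.divX ≠ 0 := by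
        intro h; rw [h, zero_mul] at hP'; exact hP hP'
      refine ih P.divX ?_ hne ?_
      · rw [Polynomial.natDegree_divX_eq_natDegree_tsub_one]; omega
      · rw [hP', map_mul, aeval_X] at h1
        exact (mul_eq_zero.1 h1).resolve_right hx
    · rw [← Polynomial.divX_mul_X_add P, map_add, map_mul, aeval_X, aeval_C] at h1
      refine ⟨- aeval x P.divX, P.coeff 0, h0, ?_⟩
      have h2 : algebraMap ℤ OO (P.coeff 0) = ((P.coeff 0 : ℤ) : OO) := rfl
      rw [h2] at h1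
      linear_combination (-1 : OO) * h1

/-- a nonzero algebraic integer divides a nonzero rational integer. -/
theorem exists_mul_eq_intCast (x : OO) (hx : x ≠ 0) : ∃ (y : OO) (n : ℤ), n ≠ 0 ∧ x * y = n := by
  have hint : IsIntegral ℤ x := Algebra.IsIntegral.isIntegral x
  exact exists_mul_eq_intCast_aux x hx _ (minpoly ℤ x) le_rfl (minpoly.ne_zero hint)
    (minpoly.aeval ℤ x)

/-- A nonzero algebraic integer divides a nonzero rational integer (constant term of its minimal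
polynomial), hence is a unit modulo almost all primes. -/
theorem exists_bound_of_ne_zero (x : OO) (hx : x ≠ 0) :
    ∃ ℓ₀ : ℕ, ∀ ℓ : ℕ, ℓ.Prime → ℓ₀ ≤ ℓ → ∀ (k : Type) [Field k] (φ : OO →+* k),
      (ℓ : k) = 0 → φ x ≠ 0 := by
  obtain ⟨y, n, hn, hxy⟩ := exists_mul_eq_intCast x hx
  refine ⟨n.natAbs + 1, fun ℓ hℓ hle k _ φ hk h0 => ?_⟩
  have h1 : ((n : ℤ) : k) = 0 := by
    have := congrArg φ hxy
    rw [map_mul, h0, zero_mul, map_intCast] at this
    exact this.symm
  have hnd : ¬ (ℓ : ℤ) ∣ n := by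
    intro hd
    have h2 := Int.natAbs_dvd_natAbs.2 hd
    rw [Int.natAbs_natCast] at h2
    have h3 := Nat.le_of_dvd (Int.natAbs_pos.2 hn) h2
    omega
  have hcop : IsCoprime (ℓ : ℤ) n := (Nat.prime_iff_prime_int.1 hℓ).coprime_iff_not_dvd.2 hnd
  obtain ⟨a, b, hab⟩ := hcop
  have h4 := congrArg (fun z : ℤ => (z : k)) hab
  simp only [Int.cast_add, Int.cast_mul, Int.cast_natCast, hk, h1, mul_zero, add_zero,
    Int.cast_one] at h4
  exact zero_ne_one h4

theorem eventually_good (m : ℕ) (hm : m ≠ 0) :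
    ∃ ℓ₀ : ℕ, ∀ ℓ : ℕ, ℓ.Prime → ℓ₀ ≤ ℓ → ∀ (k : Type) [Field k] (φ : OO →+* k),
      (ℓ : k) = 0 → Good m φ := by
  classical
  have hfin := finite_smallSet m hm
  choose! b hb using exists_bound_of_ne_zero
  refine ⟨hfin.toFinset.sup b, fun ℓ hℓ hle k _ φ hk x hx h0 => ?_⟩
  by_contra hx0
  exact hb x hx0 ℓ hℓ (le_trans (Finset.le_sup (f := b) (hfin.mem_toFinset.2 hx)) hle) k φ hk h0

/-- Residue field of a maximal ideal of `OO` above `ℓ`. -/
theorem exists_reduction (ℓ : ℕ) (hℓ : ℓ.Prime) :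
    ∃ (k : Type) (_ : Field k) (_ : IsAlgClosed k) (φ : OO →+* k), (ℓ : k) = 0 := by
  have hprime : Prime (ℓ : ℤ) := Nat.prime_iff_prime_int.1 hℓ
  haveI : (Ideal.span {(ℓ : ℤ)}).IsMaximal :=
    PrincipalIdealRing.isMaximal_of_irreducible hprime.irreducible
  obtain ⟨Q, hQ, hQv⟩ :=
    Ideal.exists_maximal_ideal_liesOver_of_isIntegral (S := OO) (Ideal.span {(ℓ : ℤ)})
  letI := Ideal.Quotient.field Q
  refine ⟨AlgebraicClosure (OO ⧸ Q), inferInstance, inferInstance,
    (algebraMap (OO ⧸ Q) (AlgebraicClosure (OO ⧸ Q))).comp (Ideal.Quotient.mk Q), ?_⟩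
  have h1 : (ℓ : OO) ∈ Q := by
    have h2 : (ℓ : ℤ) ∈ Q.under ℤ := by
      rw [← hQv.over]; exact Ideal.mem_span_singleton_self _
    rw [Ideal.under_def, Ideal.mem_comap] at h2
    simpa using h2
  have h3 : (Ideal.Quotient.mk Q) (ℓ : OO) = 0 := Ideal.Quotient.eq_zero_iff_mem.2 h1
  have h4 := congrArg (algebraMap (OO ⧸ Q) (AlgebraicClosure (OO ⧸ Q))) h3
  simpa using h4

theorem exists_primitiveRoot_OO (m : ℕ) (hm : m ≠ 0) : ∃ z : OO, IsPrimitiveRoot z m := by
  have h := Complex.isPrimitiveRoot_exp m hm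
  exact ⟨⟨_, h.isIntegral (Nat.pos_of_ne_zero hm)⟩, IsPrimitiveRoot.coe_submonoidClass_iff.1 h⟩

theorem sub_mem_smallSet {m : ℕ} {z w : OO} (hz : z ^ m = 1) (hw : w ^ m = 1) :
    z - w ∈ smallSet m := by
  refine ⟨![z, 1, 1, 1], ![w, 1, 1, 1], ?_, ?_, ?_⟩
  · intro i; fin_cases i <;> simp [hz]
  · intro i; fin_cases i <;> simp [hw]
  · simp [Fin.sum_univ_four]

/-- If `φ` is good, every `m`-th root of unity of `k` lifts uniquely. -/
theorem Good.exists_lift {m : ℕ} (hm : m ≠ 0) {k : Type} [Field k] {φ : OO →+* k}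
    (h : Good m φ) (x : k) (hx : x ^ m = 1) : ∃ z : OO, z ^ m = 1 ∧ φ z = x := by
  classical
  have hpos := Nat.pos_of_ne_zero hm
  obtain ⟨ζ, hζ⟩ := exists_primitiveRoot_OO m hm
  haveI : NeZero m := ⟨hm⟩
  have hcard : (nthRootsFinset m (1 : OO)).card = m := hζ.card_nthRootsFinset
  have hinj : Set.InjOn φ (nthRootsFinset m (1 : OO)) := by
    intro z hz w hw hzw
    have hz' := (mem_nthRootsFinset hpos 1).1 hz
    have hw' := (mem_nthRootsFinset hpos 1).1 hw
    exact sub_eq_zero.1 (h _ (sub_mem_smallSet hz' hw') (by rw [map_sub, hzw, sub_self]))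
  have hsub : (nthRootsFinset m (1 : OO)).image φ ⊆ nthRootsFinset m (1 : k) := by
    intro y hy
    obtain ⟨z, hz, rfl⟩ := Finset.mem_image.1 hy
    rw [mem_nthRootsFinset hpos]
    rw [← map_pow, (mem_nthRootsFinset hpos 1).1 hz, map_one]
  have hle : (nthRootsFinset m (1 : k)).card ≤ ((nthRootsFinset m (1 : OO)).image φ).card := by
    rw [Finset.card_image_of_injOn hinj, hcard]
    exact (Multiset.toFinset_card_le _).trans (card_nthRoots m 1)
  have heq := Finset.eq_of_subset_of_card_le hsub hle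
  have hxm : x ∈ (nthRootsFinset m (1 : OO)).image φ := by
    rw [heq]; exact (mem_nthRootsFinset hpos 1).2 hx
  obtain ⟨z, hz, rfl⟩ := Finset.mem_image.1 hxm
  exact ⟨z, (mem_nthRootsFinset hpos 1).1 hz, rfl⟩

end Fermat.Agent.S48
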